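/-
GATE-L / L8' (LOC)-GLUE, frame form (helper35; contract = helper48 STACK RULING 2, board 2764 (2)).

Language: helper46 `KrullFrame` (`IsFrame B2 V`, `Over V 𝔫 v`) for a subring `B2` of a field `F`
(functions on the chart `U₂`), `vert : Finset 𝒱` the vertical valuations, `B12 ⊇ B2` the ring of
`U₁ ∩ U₂`, `𝔯 = {z ∈ B12 | ∀ i ∈ vert, z ∈ (V i).nonunits}`, `M = {f ∈ B12 | f ^ m * u ∈ B2}`.
Every statement is for ONE prime (maximal) ideal `𝔫` of `B2` and concludes the conjunct of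
`CechKummer.exists_section.hloc` at `𝔫`:

  `∃ a b : B2, a ∉ 𝔫 ∧ b ∉ 𝔫 ∧ a * g - b ∈ B12 ∧ ∀ i ∈ vert, a * g - b ∈ (V i).nonunits`

for the local generator `g` (`g ^ m * u = c ∈ B2 ∖ 𝔫`, contract (LOC-gen)).

* `loc_of_multibranch_hom`, `loc_of_chars_hom` : the unipotent-root lemma with denominators
  (`LocOfReg.loc_of_multibranch`) for a ring homomorphism `φ : A → B` in place of a subring.
* `locRing V B2 𝔫` : `O_𝔫 = ⋂ {V v | v over 𝔫}` as a subring of `F`; `radLoc` its vertical radical;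
  `exists_clear_rad` : an element of `radLoc` becomes an element of `B2` lying in ALL vertical
  maximal ideals after multiplication by some `s ∈ B2 ∖ 𝔫` (`IsFrame.exists_clear` + separators of
  the vertical valuations not through `𝔫`).
* `loc_trivial` : (LOC) at `𝔫 ∌ q`.
* `loc_unibranch` : **(LOC-I/II)**, `br 𝔫 = {i}`, hypothesis (RES) `m`-root closedness of the image
  of `O_𝔫` in the residue field of `V i`.
* `loc_multibranch`, `loc_chars` : **(LOC-III)**, `u` a unit at every `v` over `𝔫` (MOVE), branch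
  characters `χ i : O_𝔫 → k`, conductor hypothesis, `ξ_𝔫 = 1`.
-/
import Fermat.Agent.GL.Local.KrullFrame

set_option autoImplicit false

namespace Fermat.Agent.GL.LocGlue

open Fermat.Agent.GL.KrullFrame

/-! ### The multibranch root lemma for a ring homomorphism -/

section Hom

variable {A B : Type*} [CommRing A] [CommRing B] (φ : A →+* B)

theorem mul_notMem {𝔫 : Ideal A} [𝔫.IsPrime] {a b : A} (ha : a ∉ 𝔫) (hb : b ∉ 𝔫) : a * b ∉ 𝔫 :=
  fun h => (Ideal.IsPrime.mem_or_mem ‹_› h).elim ha hb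

theorem pow_notMem {𝔫 : Ideal A} [𝔫.IsPrime] {a : A} (ha : a ∉ 𝔫) (n : ℕ) : a ^ n ∉ 𝔫 :=
  fun h => ha (Ideal.IsPrime.mem_of_pow_mem ‹_› n h)

/-- **(LOC) at a crossing point, homomorphism form.**  `I ⊇ 𝔯` an ideal of `B` with
`φ⁻¹ I ⊆ 𝔫`, `φ c₀ · I ^ N ⊆ φ A + 𝔯` with `c₀ ∉ 𝔫`, `m ∉ 𝔫`, `g ^ m ≡ φ w mod 𝔯` and `g ≡ φ b₀`
modulo `I` with `b₀ ∉ 𝔫`.  Then `φ a * g ≡ φ b mod 𝔯` with `a, b ∉ 𝔫`. -/
theorem loc_of_multibranch_hom (𝔯 : Ideal B) (𝔫 : Ideal A) [𝔫.IsPrime]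
    (I : Ideal B) (h𝔯I : 𝔯 ≤ I) (hI𝔫 : ∀ b : A, φ b ∈ I → b ∈ 𝔫)
    {m : ℕ} (hm : (m : A) ∉ 𝔫)
    (N : ℕ) (c₀ : A) (hc₀ : c₀ ∉ 𝔫) (hcond : ∀ z ∈ I ^ N, ∃ b : A, φ c₀ * z - φ b ∈ 𝔯)
    {g : B} {w : A} (hgw : g ^ m - φ w ∈ 𝔯)
    {b₀ : A} (hb₀ : b₀ ∉ 𝔫) (hgb : g - φ b₀ ∈ I) :
    ∃ a b : A, a ∉ 𝔫 ∧ b ∉ 𝔫 ∧ φ a * g - φ b ∈ 𝔯 := by
  have h1𝔫 : (1 : A) ∉ 𝔫 := fun h => (Ideal.IsPrime.ne_top ‹_›) ((Ideal.eq_top_iff_one 𝔫).mpr h)
  have hm0 : m ≠ 0 := by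
    rintro rfl
    exact hm (by simp)
  -- the filtration step
  have main : ∀ i : ℕ, ∃ a b : A, a ∉ 𝔫 ∧ b ∉ 𝔫 ∧ φ a * g - φ b ∈ I ^ (i + 1) ⊔ 𝔯 := by
    intro i
    induction i with
    | zero =>
      refine ⟨1, b₀, h1𝔫, hb₀, ?_⟩
      rw [map_one, one_mul, zero_add, pow_one]
      exact Ideal.mem_sup_left hgb
    | succ i ih =>
      obtain ⟨a, b, ha, hb, hab⟩ := ih
      set n : B := φ a * g - φ b with hn
      have hnI : n ∈ I := by
        have h1 : I ^ (i + 1) ⊔ 𝔯 ≤ I := sup_le (Ideal.pow_le_self (Nat.succ_ne_zero i)) h𝔯I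
        exact h1 hab
      have hn2 : ∀ x : B, x * n ^ 2 ∈ I ^ (i + 1 + 1) ⊔ 𝔯 := by
        intro x
        obtain ⟨z, hz, ρ, hρ, hzρ⟩ := Submodule.mem_sup.mp hab
        have h2 : n ^ 2 = z * n + ρ * n := by rw [← hzρ]; ring
        rw [h2, mul_add]
        refine Ideal.add_mem _ ?_ ?_
        · refine Ideal.mem_sup_left ?_
          have h3 : z * n ∈ I ^ (i + 1) * I := Ideal.mul_mem_mul hz hnI
          rw [← pow_succ] at h3
          exact Ideal.mul_mem_left _ _ h3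
        · exact Ideal.mem_sup_right (Ideal.mul_mem_left _ _ (Ideal.mul_mem_right _ _ hρ))
      obtain ⟨k, hk⟩ := Polynomial.powAddExpansion (φ b) n m
      have hag : φ b + n = φ a * g := by rw [hn]; ring
      set β : A := a ^ m * w - b ^ m with hβ
      have hφβ : φ β = φ a ^ m * φ w - φ b ^ m := by
        rw [hβ, map_sub, map_mul, map_pow, map_pow]
      have h4 : (m : B) * φ b ^ (m - 1) * n - φ β ∈ I ^ (i + 1 + 1) ⊔ 𝔯 := by
        have h5 : (m : B) * φ b ^ (m - 1) * n - φ β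
            = φ a ^ m * (g ^ m - φ w) - k * n ^ 2 := by
          have h6 : (φ a * g) ^ m = φ b ^ m + m * φ b ^ (m - 1) * n + k * n ^ 2 := by
            rw [← hag]; exact hk
          rw [hφβ]
          have h7 : (φ a * g) ^ m = φ a ^ m * g ^ m := mul_pow _ _ _
          rw [h7] at h6
          linear_combination (-1 : B) * h6
        rw [h5]
        exact Ideal.sub_mem _ (Ideal.mem_sup_right (Ideal.mul_mem_left _ _ hgw)) (hn2 k)
      have hβ𝔫 : β ∈ 𝔫 := by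
        apply hI𝔫
        have h1 : I ^ (i + 1 + 1) ⊔ 𝔯 ≤ I := sup_le (Ideal.pow_le_self (Nat.succ_ne_zero _)) h𝔯I
        have h8 := h1 h4
        have h9 : φ β = (m : B) * φ b ^ (m - 1) * n
            - ((m : B) * φ b ^ (m - 1) * n - φ β) := by ring
        rw [h9]
        exact Ideal.sub_mem _ (Ideal.mul_mem_left _ _ hnI) h8
      refine ⟨(m : A) * b ^ (m - 1) * a, (m : A) * b ^ m + β, ?_, ?_, ?_⟩
      · exact mul_notMem (mul_notMem hm (pow_notMem hb _)) ha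
      · intro h
        have h10 : (m : A) * b ^ m ∈ 𝔫 := by
          have : (m : A) * b ^ m = ((m : A) * b ^ m + β) - β := by ring
          rw [this]
          exact 𝔫.sub_mem h hβ𝔫
        exact mul_notMem hm (pow_notMem hb _) h10
      · have h11 : φ ((m : A) * b ^ (m - 1) * a) * g - φ ((m : A) * b ^ m + β)
            = (m : B) * φ b ^ (m - 1) * n - φ β := by
          have h12 : φ b ^ m = φ b ^ (m - 1) * φ b := by
            rw [← pow_succ, Nat.sub_add_cancel (Nat.pos_of_ne_zero hm0)]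
          rw [map_mul, map_mul, map_add, map_mul, map_pow, map_pow, map_natCast, hn, h12]
          ring
        rw [h11]
        exact h4
  -- the conductor step
  obtain ⟨a, b, ha, hb, hab⟩ := main N
  obtain ⟨z, hz, ρ, hρ, hzρ⟩ := Submodule.mem_sup.mp hab
  have hzN : z ∈ I ^ N := Ideal.pow_le_pow_right (Nat.le_succ N) hz
  have hzI : z ∈ I := Ideal.pow_le_self (Nat.succ_ne_zero N) hz
  obtain ⟨b', hb'⟩ := hcond z hzN
  have hb'𝔫 : b' ∈ 𝔫 := by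
    apply hI𝔫
    have : φ b' = φ c₀ * z - (φ c₀ * z - φ b') := by ring
    rw [this]
    exact Ideal.sub_mem _ (Ideal.mul_mem_left _ _ hzI) (h𝔯I hb')
  refine ⟨c₀ * a, c₀ * b + b', mul_notMem hc₀ ha, ?_, ?_⟩
  · intro h
    have : c₀ * b ∈ 𝔫 := by
      have h1 : c₀ * b = (c₀ * b + b') - b' := by ring
      rw [h1]
      exact 𝔫.sub_mem h hb'𝔫
    exact mul_notMem hc₀ hb this
  · have h1 : φ (c₀ * a) * g - φ (c₀ * b + b') = (φ c₀ * z - φ b') + φ c₀ * ρ := by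
      rw [map_mul, map_add, map_mul]
      have : φ a * g - φ b = z + ρ := hzρ.symm
      linear_combination φ c₀ * this
    rw [h1]
    exact 𝔯.add_mem hb' (𝔯.mul_mem_left _ hρ)

/-- **(LOC) at a crossing point, character form.**  Branch characters `χ i : B → k` killing `𝔯`,
restricting along `φ` to ONE surjective character of `A` with kernel inside `𝔫`;
`I = ⋂ ker χ i`; `ξ = 1` reads `χ i g = χ j g`. -/
theorem loc_of_chars_hom (𝔯 : Ideal B) (𝔫 : Ideal A) [𝔫.IsPrime]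
    {k : Type*} [Field k] {ι : Type*} [Nonempty ι] (χ : ι → B →+* k)
    (hχ𝔯 : ∀ i, ∀ z ∈ 𝔯, χ i z = 0)
    (hχ𝔫 : ∀ i, ∀ b : A, χ i (φ b) = 0 → b ∈ 𝔫)
    (hagree : ∀ i j, ∀ b : A, χ i (φ b) = χ j (φ b))
    (hsurj : ∀ i, ∀ x : k, ∃ b : A, χ i (φ b) = x)
    {m : ℕ} (hm : (m : A) ∉ 𝔫)
    (N : ℕ) (c₀ : A) (hc₀ : c₀ ∉ 𝔫)
    (hcond : ∀ z ∈ (⨅ i, RingHom.ker (χ i)) ^ N, ∃ b : A, φ c₀ * z - φ b ∈ 𝔯)
    {g : B} {w : A} (hw : w ∉ 𝔫) (hgw : g ^ m - φ w ∈ 𝔯)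
    (hξ : ∀ i j, χ i g = χ j g) :
    ∃ a b : A, a ∉ 𝔫 ∧ b ∉ 𝔫 ∧ φ a * g - φ b ∈ 𝔯 := by
  obtain ⟨i₀⟩ := ‹Nonempty ι›
  obtain ⟨b₀, hb₀⟩ := hsurj i₀ (χ i₀ g)
  have hm0 : m ≠ 0 := by
    rintro rfl
    exact hm (by simp)
  refine loc_of_multibranch_hom φ 𝔯 𝔫 (⨅ i, RingHom.ker (χ i)) ?_ ?_ hm N c₀ hc₀ hcond hgw
    (b₀ := b₀) ?_ ?_
  · intro z hz
    rw [Ideal.mem_iInf]
    intro i
    exact (RingHom.mem_ker).mpr (hχ𝔯 i z hz)
  · intro b hb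
    rw [Ideal.mem_iInf] at hb
    exact hχ𝔫 i₀ b ((RingHom.mem_ker).mp (hb i₀))
  · intro hb
    have h1 : χ i₀ g ^ m = χ i₀ (φ w) := by
      have := hχ𝔯 i₀ _ hgw
      rw [map_sub, map_pow, sub_eq_zero] at this
      exact this
    have h3 : χ i₀ (φ (w - b₀ ^ m)) = 0 := by
      rw [map_sub, map_sub, map_pow, map_pow, hb₀, h1, sub_self]
    have h4 := hχ𝔫 i₀ _ h3
    apply hw
    have : w = (w - b₀ ^ m) + b₀ ^ m := by ring
    rw [this]
    exact 𝔫.add_mem h4 (Ideal.pow_mem_of_mem 𝔫 hb m (Nat.pos_of_ne_zero hm0))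
  · rw [Ideal.mem_iInf]
    intro i
    rw [RingHom.mem_ker, map_sub, sub_eq_zero, hξ i i₀, ← hb₀, hagree i i₀]

end Hom

/-! ### Valuation subring helpers -/

section Val

variable {F : Type*} [Field F]

theorem mul_mem_nonunits {W : ValuationSubring F} {x y : F} (hx : x ∈ W) (hy : y ∈ W.nonunits) :
    x * y ∈ W.nonunits := by
  rw [ValuationSubring.mem_nonunits_iff] at hy ⊢
  rw [map_mul]
  have hx' : W.valuation x ≤ 1 := (W.valuation_le_one_iff x).mpr hx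
  calc W.valuation x * W.valuation y ≤ 1 * W.valuation y := mul_le_mul_left hx' _
    _ = W.valuation y := one_mul _
    _ < 1 := hy

theorem mem_of_mem_nonunits {W : ValuationSubring F} {y : F} (hy : y ∈ W.nonunits) : y ∈ W :=
  W.nonunits_subset hy

/-- valuation subrings are root closed -/
theorem mem_of_pow_mem {W : ValuationSubring F} {x : F} {m : ℕ} (hm : m ≠ 0) (h : x ^ m ∈ W) :
    x ∈ W := by
  rw [← W.valuation_le_one_iff] at h ⊢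
  rw [map_pow] at h
  exact (pow_le_one_iff hm).mp h

/-- `1 + nonunit` is a unit -/
theorem inv_mem_of_sub_one_mem {W : ValuationSubring F} {u : F} (hu : u - 1 ∈ W.nonunits) :
    u ∈ W ∧ u⁻¹ ∈ W := by
  have h1 : W.valuation (u - 1) < 1 := (ValuationSubring.mem_nonunits_iff W).mp hu
  have h2 : W.valuation u = 1 := by
    have : W.valuation (1 + (u - 1)) = 1 := by
      rw [Valuation.map_add_eq_of_lt_left]
      · exact map_one _
      · rwa [map_one]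
    rwa [add_sub_cancel] at this
  refine ⟨(W.valuation_le_one_iff u).mp h2.le, (W.valuation_le_one_iff _).mp ?_⟩
  rw [map_inv₀, h2, inv_one]

end Val

/-! ### The local ring of a frame at a prime, and clearing -/

section Frame

variable {F : Type*} [Field F] {𝒱 : Type*} (V : 𝒱 → ValuationSubring F) (B2 : Subring F)

/-- `O_𝔫 = ⋂ {V v | v over 𝔫}` as a subring of `F`. -/
def locRing (𝔫 : Ideal B2) : Subring F where
  carrier := {z | ∀ v, Over V 𝔫 v → z ∈ V v}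
  mul_mem' := fun ha hb v hv => (V v).mul_mem _ _ (ha v hv) (hb v hv)
  one_mem' := fun v _ => (V v).one_mem
  add_mem' := fun ha hb v hv => (V v).add_mem _ _ (ha v hv) (hb v hv)
  zero_mem' := fun v _ => (V v).zero_mem
  neg_mem' := fun ha v hv => (V v).neg_mem _ (ha v hv)

variable {V B2}

theorem mem_locRing {𝔫 : Ideal B2} {z : F} :
    z ∈ locRing V B2 𝔫 ↔ ∀ v, Over V 𝔫 v → z ∈ V v := Iff.rfl

/-- the vertical radical of `O_𝔫`: elements in the maximal ideal of every vertical `V j`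
through `𝔫`. -/
def radLoc (vert : Finset 𝒱) (𝔫 : Ideal B2) : Ideal (locRing V B2 𝔫) where
  carrier := {z | ∀ j ∈ vert, Over V 𝔫 j → (z : F) ∈ (V j).nonunits}
  add_mem' := fun {a b} ha hb j hj hjo => by
    push_cast
    exact (V j).nonunits.add_mem (ha j hj hjo) (hb j hj hjo)
  zero_mem' := fun j _ _ => by
    push_cast
    exact (V j).nonunits.zero_mem
  smul_mem' := fun c z hz j hj hjo => by
    rw [smul_eq_mul]
    push_cast
    exact mul_mem_nonunits (c.2 j hjo) (hz j hj hjo)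

theorem mem_radLoc {vert : Finset 𝒱} {𝔫 : Ideal B2} {z : locRing V B2 𝔫} :
    z ∈ radLoc vert 𝔫 ↔ ∀ j ∈ vert, Over V 𝔫 j → (z : F) ∈ (V j).nonunits := Iff.rfl

variable [IsFractionRing B2 F]

theorem le_locRing (hV : IsFrame B2 V) (𝔫 : Ideal B2) : B2 ≤ locRing V B2 𝔫 :=
  fun b hb v _ => hV.algebraMap_mem ⟨b, hb⟩ v

/-- the inclusion `B2 → O_𝔫`. -/
def incl (hV : IsFrame B2 V) (𝔫 : Ideal B2) : B2 →+* locRing V B2 𝔫 :=
  Subring.inclusion (le_locRing hV 𝔫)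

@[simp] theorem coe_incl (hV : IsFrame B2 V) (𝔫 : Ideal B2) (b : B2) :
    ((incl hV 𝔫 b : locRing V B2 𝔫) : F) = (b : F) := rfl

/-- **Clearing.**  An element of `F` integral at every `v` over `𝔫` and in the maximal ideal of the
vertical `V j` through `𝔫` becomes, after multiplication by some `s ∈ B2 ∖ 𝔫`, an element of `B2`
in the maximal ideal of EVERY vertical `V j`. -/
theorem exists_clear_rad (hV : IsFrame B2 V) (vert : Finset 𝒱) (𝔫 : Ideal B2) [𝔫.IsPrime]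
    {z : F} (hz : z ∈ locRing V B2 𝔫)
    (hzr : ∀ j ∈ vert, Over V 𝔫 j → z ∈ (V j).nonunits) :
    ∃ s : B2, s ∉ 𝔫 ∧ (s : F) * z ∈ B2 ∧ ∀ j ∈ vert, (s : F) * z ∈ (V j).nonunits := by
  classical
  obtain ⟨s₁, hs₁, hs₁z⟩ := hV.exists_clear 𝔫 (fun _ => z) (hV.finite_bad z) hz
  -- separators of the vertical valuations not through `𝔫`
  have hsep : ∀ j, ¬ Over V 𝔫 j → ∃ e : B2, e ∉ 𝔫 ∧ (e : F) ∈ (V j).nonunits := by
    intro j hj
    simp only [Over, not_forall] at hj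
    obtain ⟨e, he, he𝔫⟩ := hj
    exact ⟨e, he𝔫, he⟩
  choose! e he𝔫 he using hsep
  set E : 𝒱 → B2 := fun j => if Over V 𝔫 j then 1 else e j with hE
  have h1𝔫 : (1 : B2) ∉ 𝔫 := fun h => (Ideal.IsPrime.ne_top ‹_›) ((Ideal.eq_top_iff_one 𝔫).mpr h)
  have hE𝔫 : ∀ j, E j ∉ 𝔫 := by
    intro j
    by_cases hj : Over V 𝔫 j
    · simp only [hE, if_pos hj]; exact h1𝔫
    · simp only [hE, if_neg hj]; exact he𝔫 j hj
  refine ⟨s₁ * ∏ j ∈ vert, E j, ?_, ?_, ?_⟩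
  · intro h
    rcases Ideal.IsPrime.mem_or_mem ‹_› h with h | h
    · exact hs₁ h
    · rw [Ideal.IsPrime.prod_mem_iff] at h
      obtain ⟨j, _, hj⟩ := h
      exact hE𝔫 j hj
  · -- in `B2`
    have h2 : (s₁ : F) * z ∈ B2 := by
      obtain ⟨a, ha⟩ := (hV.mem_range_iff _).mpr hs₁z
      rw [← show algebraMap B2 F s₁ = (s₁ : F) from rfl, ← ha]
      exact a.2
    have : ((s₁ * ∏ j ∈ vert, E j : B2) : F) * z = ((∏ j ∈ vert, E j : B2) : F) * ((s₁ : F) * z) := by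
      push_cast; ring
    rw [this]
    exact B2.mul_mem (∏ j ∈ vert, E j).2 h2
  · intro j hj
    by_cases hjo : Over V 𝔫 j
    · exact mul_mem_nonunits (hV.algebraMap_mem (s₁ * ∏ j ∈ vert, E j) j) (hzr j hj hjo)
    · -- `E j = e j` is in the maximal ideal of `V j`
      have h3 : ((s₁ * ∏ i ∈ vert, E i : B2) : F) * z
          = ((∏ i ∈ vert.erase j, E i : B2) : F) * ((s₁ : F) * z) * (e j : F) := by
        rw [← Finset.mul_prod_erase vert E hj]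
        simp only [hE, if_neg hjo]
        push_cast
        ring
      rw [h3]
      refine mul_mem_nonunits ?_ (he j hjo)
      exact (V j).mul_mem _ _ (hV.algebraMap_mem (∏ i ∈ vert.erase j, E i) j) (hs₁z j)

end Frame

/-! ### The (LOC) contracts -/

section Contracts

variable {F : Type*} [Field F] {𝒱 : Type*} {V : 𝒱 → ValuationSubring F} {B2 : Subring F}

/-- The conjunct of `hloc` at `𝔫` for the section `g`, in frame language:
`a g - b ∈ 𝔯 = {z ∈ B12 | ∀ j ∈ vert, z ∈ (V j).nonunits}` with `a, b ∈ B2 ∖ 𝔫`. -/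
def LocAt (V : 𝒱 → ValuationSubring F) (B2 B12 : Subring F) (vert : Finset 𝒱) (𝔫 : Ideal B2)
    (g : F) : Prop :=
  ∃ a b : B2, a ∉ 𝔫 ∧ b ∉ 𝔫 ∧ (a : F) * g - (b : F) ∈ B12 ∧
    ∀ j ∈ vert, (a : F) * g - (b : F) ∈ (V j).nonunits

/-- **(LOC) off the special fibre**: `q ∉ 𝔫`, `q` in every vertical maximal ideal; `g = 0`. -/
theorem loc_trivial (B12 : Subring F) (hle : B2 ≤ B12) (vert : Finset 𝒱) (𝔫 : Ideal B2)
    {q : B2} (hq : q ∉ 𝔫) (hqv : ∀ j ∈ vert, (q : F) ∈ (V j).nonunits) :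
    LocAt V B2 B12 vert 𝔫 0 := by
  refine ⟨q, q, hq, hq, ?_, fun j hj => ?_⟩
  · rw [mul_zero, zero_sub]
    exact B12.neg_mem (hle q.2)
  · rw [mul_zero, zero_sub]
    exact (V j).nonunits.neg_mem (hqv j hj)

/-- the local generator `g` (`g ^ m * u = c ∈ B2`) is integral at every valuation at which `u` is
a unit. -/
theorem gen_mem {W : ValuationSubring F} (hB2W : ∀ b : B2, (b : F) ∈ W) {m : ℕ} (hm : m ≠ 0)
    {u g : F} {c : B2} (huW : u⁻¹ ∈ W) (hu0 : u ≠ 0) (hgc : g ^ m * u = c) : g ∈ W := by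
  apply mem_of_pow_mem hm
  have : g ^ m = (c : F) * u⁻¹ := by
    rw [← hgc, mul_assoc, mul_inv_cancel₀ hu0, mul_one]
  rw [this]
  exact W.mul_mem _ _ (hB2W c) huW

/-- `g ^ m - c = - g ^ m (u - 1)` is in the maximal ideal when `u ≡ 1`. -/
theorem gen_pow_sub_mem {W : ValuationSubring F} {m : ℕ} {u g : F} {c : B2} (hgW : g ∈ W)
    (hu : u - 1 ∈ W.nonunits) (hgc : g ^ m * u = c) : g ^ m - (c : F) ∈ W.nonunits := by
  have : g ^ m - (c : F) = -(g ^ m * (u - 1)) := by rw [← hgc]; ring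
  rw [this]
  exact W.nonunits.neg_mem (mul_mem_nonunits (W.pow_mem hgW m) hu)

theorem ne_zero_of_sub_one_mem {W : ValuationSubring F} {u : F} (hu : u - 1 ∈ W.nonunits) :
    u ≠ 0 := by
  rintro rfl
  rw [zero_sub, ValuationSubring.mem_nonunits_iff, Valuation.map_neg, map_one] at hu
  exact lt_irrefl _ hu

variable [IsFractionRing B2 F]

/-- **(LOC-I/II)**: `i` is the ONLY vertical valuation through `𝔫`; (RES): `m`-th roots, in the
residue field of `V i`, of (reductions of) elements of `B2 ∖ 𝔫` are fractions of such elements.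
Then the local generator `g` (`g ^ m * u = c ∈ B2 ∖ 𝔫`, `u ≡ 1` at the vertical valuations)
satisfies (LOC) at `𝔫`. -/
theorem loc_unibranch (hV : IsFrame B2 V) (B12 : Subring F) (hle : B2 ≤ B12) (vert : Finset 𝒱)
    (𝔫 : Ideal B2) [𝔫.IsPrime] {i : 𝒱} (hi : i ∈ vert)
    (hbr : ∀ j ∈ vert, j ≠ i → ¬ Over V 𝔫 j)
    {m : ℕ} (hm : m ≠ 0) {u : F} (hu : ∀ j ∈ vert, u - 1 ∈ (V j).nonunits)
    (hres : ∀ z ∈ V i, (∃ d : B2, d ∉ 𝔫 ∧ z ^ m - (d : F) ∈ (V i).nonunits) →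
      ∃ a b : B2, a ∉ 𝔫 ∧ b ∉ 𝔫 ∧ (a : F) * z - (b : F) ∈ (V i).nonunits)
    {g : F} (hgB : g ∈ B12) {c : B2} (hc : c ∉ 𝔫) (hgc : g ^ m * u = c) :
    LocAt V B2 B12 vert 𝔫 g := by
  classical
  have hB2 : ∀ (j : 𝒱) (b : B2), (b : F) ∈ V j := fun j b => hV.algebraMap_mem b j
  have hgV : ∀ j ∈ vert, g ∈ V j := fun j hj =>
    gen_mem (hB2 j) hm (inv_mem_of_sub_one_mem (hu j hj)).2 (ne_zero_of_sub_one_mem (hu j hj)) hgc
  obtain ⟨a1, b1, ha1, hb1, hab1⟩ := hres g (hgV i hi)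
    ⟨c, hc, gen_pow_sub_mem (hgV i hi) (hu i hi) hgc⟩
  -- separators
  have hsep : ∀ j, ¬ Over V 𝔫 j → ∃ e : B2, e ∉ 𝔫 ∧ (e : F) ∈ (V j).nonunits := by
    intro j hj
    simp only [Over, not_forall] at hj
    obtain ⟨e, he, he𝔫⟩ := hj
    exact ⟨e, he𝔫, he⟩
  choose! e he𝔫 he using hsep
  set E : B2 := ∏ j ∈ vert.erase i, e j with hE
  have hE𝔫 : E ∉ 𝔫 := by
    intro h
    rw [hE, Ideal.IsPrime.prod_mem_iff] at h
    obtain ⟨j, hj, hj𝔫⟩ := h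
    exact he𝔫 j (hbr j (Finset.mem_of_mem_erase hj) (Finset.ne_of_mem_erase hj)) hj𝔫
  have key : ((E * a1 : B2) : F) * g - ((E * b1 : B2) : F) = (E : F) * ((a1 : F) * g - (b1 : F)) := by
    push_cast; ring
  refine ⟨E * a1, E * b1, mul_notMem hE𝔫 ha1, mul_notMem hE𝔫 hb1, ?_, fun j hj => ?_⟩
  · exact B12.sub_mem (B12.mul_mem (hle (E * a1).2) hgB) (hle (E * b1).2)
  · rw [key]
    by_cases hji : j = i
    · subst hji
      exact mul_mem_nonunits (hB2 j E) hab1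
    · have hjm : j ∈ vert.erase i := Finset.mem_erase.mpr ⟨hji, hj⟩
      have h1 : (E : F) = ((∏ l ∈ (vert.erase i).erase j, e l : B2) : F) * (e j : F) := by
        rw [hE, ← Finset.mul_prod_erase _ e hjm]
        push_cast
        ring
      have h2 : (a1 : F) * g - (b1 : F) ∈ V j :=
        sub_mem ((V j).mul_mem _ _ (hB2 j a1) (hgV j hj)) (hB2 j b1)
      rw [h1, mul_assoc, mul_comm (e j : F), ← mul_assoc]
      exact mul_mem_nonunits ((V j).mul_mem _ _ (hB2 j _) h2) (he j (hbr j hj hji))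

/-- from a relation in the local ring modulo its vertical radical to (LOC) on the chart. -/
theorem locAt_of_radLoc (hV : IsFrame B2 V) (B12 : Subring F) (hle : B2 ≤ B12) (vert : Finset 𝒱)
    (𝔫 : Ideal B2) [𝔫.IsPrime] {g : F} (hg : g ∈ locRing V B2 𝔫) {a b : B2} (ha : a ∉ 𝔫)
    (hb : b ∉ 𝔫)
    (hab : incl hV 𝔫 a * (⟨g, hg⟩ : locRing V B2 𝔫) - incl hV 𝔫 b ∈ radLoc vert 𝔫) :
    LocAt V B2 B12 vert 𝔫 g := by
  have hz : (a : F) * g - (b : F) ∈ locRing V B2 𝔫 :=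
    (incl hV 𝔫 a * (⟨g, hg⟩ : locRing V B2 𝔫) - incl hV 𝔫 b).2
  obtain ⟨s, hs, hsB, hsv⟩ := exists_clear_rad hV vert 𝔫 hz (fun j hj hjo => hab j hj hjo)
  have key : ((s * a : B2) : F) * g - ((s * b : B2) : F) = (s : F) * ((a : F) * g - (b : F)) := by
    push_cast; ring
  refine ⟨s * a, s * b, mul_notMem hs ha, mul_notMem hs hb, ?_, fun j hj => ?_⟩
  · rw [key]; exact hle hsB
  · rw [key]; exact hsv j hj

/-- the local generator lies in the local ring when `u` is a unit at every `v` over `𝔫`. -/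
theorem gen_mem_locRing (hV : IsFrame B2 V) (𝔫 : Ideal B2) {m : ℕ} (hm : m ≠ 0) {u g : F}
    {c : B2} (hu0 : u ≠ 0) (huO : ∀ v, Over V 𝔫 v → u⁻¹ ∈ V v) (hgc : g ^ m * u = c) :
    g ∈ locRing V B2 𝔫 := fun v hv =>
  gen_mem (fun b => hV.algebraMap_mem b v) hm (huO v hv) hu0 hgc

/-- **(LOC-III), ideal form.**  `u` is a unit at every `v` over `𝔫` (MOVE) and `≡ 1` at the
vertical valuations; `I ⊇ radLoc` an ideal of `O_𝔫` with `I ∩ B2 ⊆ 𝔫` (functions vanishing at all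
branch points), conductor `c₀ I ^ N ⊆ B2 + radLoc`, `m ∉ 𝔫`, and `g ≡ b₀ mod I` with
`b₀ ∈ B2 ∖ 𝔫` (`ξ_𝔫 = 1`). -/
theorem loc_multibranch (hV : IsFrame B2 V) (B12 : Subring F) (hle : B2 ≤ B12) (vert : Finset 𝒱)
    (𝔫 : Ideal B2) [𝔫.IsPrime]
    {m : ℕ} (hm : (m : B2) ∉ 𝔫) {u : F} (hu0 : u ≠ 0)
    (hu : ∀ j ∈ vert, Over V 𝔫 j → u - 1 ∈ (V j).nonunits)
    (huO : ∀ v, Over V 𝔫 v → u⁻¹ ∈ V v)
    {g : F} {c : B2} (hgc : g ^ m * u = c)
    (I : Ideal (locRing V B2 𝔫)) (h𝔯I : radLoc vert 𝔫 ≤ I)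
    (hI𝔫 : ∀ b : B2, incl hV 𝔫 b ∈ I → b ∈ 𝔫)
    (N : ℕ) (c₀ : B2) (hc₀ : c₀ ∉ 𝔫)
    (hcond : ∀ z ∈ I ^ N, ∃ b : B2, incl hV 𝔫 c₀ * z - incl hV 𝔫 b ∈ radLoc vert 𝔫)
    {b₀ : B2} (hb₀ : b₀ ∉ 𝔫)
    (hgb : ∀ hg : g ∈ locRing V B2 𝔫, (⟨g, hg⟩ : locRing V B2 𝔫) - incl hV 𝔫 b₀ ∈ I) :
    LocAt V B2 B12 vert 𝔫 g := by
  have hm0 : m ≠ 0 := by
    rintro rfl
    exact hm (by simp)
  have hg := gen_mem_locRing hV 𝔫 hm0 hu0 huO hgc
  have hgw : (⟨g, hg⟩ : locRing V B2 𝔫) ^ m - incl hV 𝔫 c ∈ radLoc vert 𝔫 := by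
    intro j hj hjo
    show g ^ m - (c : F) ∈ (V j).nonunits
    exact gen_pow_sub_mem (hg j hjo) (hu j hj hjo) hgc
  obtain ⟨a, b, ha, hb, hab⟩ := loc_of_multibranch_hom (incl hV 𝔫) (radLoc vert 𝔫) 𝔫 I h𝔯I hI𝔫
    hm N c₀ hc₀ hcond hgw hb₀ (hgb hg)
  exact locAt_of_radLoc hV B12 hle vert 𝔫 hg ha hb hab

/-- **(LOC-III), character form.**  Branch characters `χ i : O_𝔫 → k` killing the vertical
radical, restricting to ONE surjective character of `B2` with kernel in `𝔫`; conductor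
`c₀ (⋂ ker χ i) ^ N ⊆ B2 + radLoc`; `ξ_𝔫 = 1`: `χ i g = χ j g`. -/
theorem loc_chars (hV : IsFrame B2 V) (B12 : Subring F) (hle : B2 ≤ B12) (vert : Finset 𝒱)
    (𝔫 : Ideal B2) [𝔫.IsPrime]
    {m : ℕ} (hm : (m : B2) ∉ 𝔫) {u : F} (hu0 : u ≠ 0)
    (hu : ∀ j ∈ vert, Over V 𝔫 j → u - 1 ∈ (V j).nonunits)
    (huO : ∀ v, Over V 𝔫 v → u⁻¹ ∈ V v)
    {g : F} {c : B2} (hc : c ∉ 𝔫) (hgc : g ^ m * u = c)
    {k : Type*} [Field k] {ι : Type*} [Nonempty ι] (χ : ι → locRing V B2 𝔫 →+* k)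
    (hχ𝔯 : ∀ i, ∀ z ∈ radLoc vert 𝔫, χ i z = 0)
    (hχ𝔫 : ∀ i, ∀ b : B2, χ i (incl hV 𝔫 b) = 0 → b ∈ 𝔫)
    (hagree : ∀ i j, ∀ b : B2, χ i (incl hV 𝔫 b) = χ j (incl hV 𝔫 b))
    (hsurj : ∀ i, ∀ x : k, ∃ b : B2, χ i (incl hV 𝔫 b) = x)
    (N : ℕ) (c₀ : B2) (hc₀ : c₀ ∉ 𝔫)
    (hcond : ∀ z ∈ (⨅ i, RingHom.ker (χ i)) ^ N,
      ∃ b : B2, incl hV 𝔫 c₀ * z - incl hV 𝔫 b ∈ radLoc vert 𝔫)
    (hξ : ∀ hg : g ∈ locRing V B2 𝔫, ∀ i j, χ i ⟨g, hg⟩ = χ j ⟨g, hg⟩) :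
    LocAt V B2 B12 vert 𝔫 g := by
  have hm0 : m ≠ 0 := by
    rintro rfl
    exact hm (by simp)
  have hg := gen_mem_locRing hV 𝔫 hm0 hu0 huO hgc
  have hgw : (⟨g, hg⟩ : locRing V B2 𝔫) ^ m - incl hV 𝔫 c ∈ radLoc vert 𝔫 := by
    intro j hj hjo
    show g ^ m - (c : F) ∈ (V j).nonunits
    exact gen_pow_sub_mem (hg j hjo) (hu j hj hjo) hgc
  obtain ⟨a, b, ha, hb, hab⟩ := loc_of_chars_hom (incl hV 𝔫) (radLoc vert 𝔫) 𝔫 χ hχ𝔯 hχ𝔫 hagree
    hsurj hm N c₀ hc₀ hcond hc hgw (hξ hg)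
  exact locAt_of_radLoc hV B12 hle vert 𝔫 hg ha hb hab

end Contracts

end Fermat.Agent.GL.LocGlue
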