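/-
GATE-L / (LOC) ADAPTERS (helper35): from the two landed (LOC) producers to the `hloc` binder of the
two landed Čech–Kummer consumers.

PRODUCERS
* `LocGlue.LocAt V B2 B12 vert 𝔫 g` (helper47 `LocTypeI.exists_locAt`, helper35 `loc_typeIII`,
  `loc_unibranch`, `loc_trivial`): `∃ a b : B2, a ∉ 𝔫 ∧ b ∉ 𝔫 ∧ a g - b ∈ B12 ∧ ∀ j ∈ vert, … ∈ (V j).nonunits`;
* helper29 `loc_frobGlue3_max` / `loc_of_conductor_max`: `∃ a b : B2', a ∉ 𝔫' ∧ b ∉ 𝔫' ∧ a g - b ∈ 𝔯`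
  inside an auxiliary ring `B` (`B2' : Subring B`, `𝔯 : Ideal B`).

CONSUMERS
* helper28 `CechAmbient.exists_section_ambient` : `rad : AddSubgroup F`, `B2 : Subalgebra R0 F`;
* helper33 `CechKummerField` : `∃ k, (a g - b) ^ k ∈ q B12`.

CONTENT
* `subB2`, `toB2`, `comapIdeal` : a subring `Bs ≤ F` with `B2 ≤ Bs`; `B2` as a subring of `↥Bs`, and the
  transport of ideals; `locAt_of_sub` : helper29's conclusion (for `B := ↥Bs`) ⟹ `LocAt`.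
* `vertRad V B12 vert : AddSubgroup F` with `mem_vertRad`, `vertRad_mul_mem` (= `hradmul`),
  `locAt_iff_vertRad`;
* `hloc_ambient` : `LocAt` at every maximal ideal ⟹ `hloc` of `exists_section_ambient` VERBATIM
  (for `B2 B12 : Subalgebra R0 F`);
* `hloc_radical` : with (FR2) (`z ∈ vertRad ⟹ ∃ k, z ^ k ∈ q B12`), the radical form.
-/
import Fermat.Agent.GL.Loc.LocGlue

set_option autoImplicit false

namespace Fermat.Agent.GL.LocToCech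

open Fermat.Agent.GL.LocGlue

variable {F : Type*} [Field F] {𝒱 : Type*} (V : 𝒱 → ValuationSubring F)

/-! ### `B2` inside an auxiliary subring `Bs` -/

section Sub

variable (B2 Bs : Subring F)

/-- `B2` as a subring of `↥Bs` -/
def subB2 : Subring Bs := B2.comap Bs.subtype

theorem mem_subB2 (x : Bs) : x ∈ subB2 B2 Bs ↔ (x : F) ∈ B2 := Iff.rfl

/-- the comparison `subB2 → B2` -/
def toB2 : subB2 B2 Bs →+* B2 where
  toFun x := ⟨((x : Bs) : F), x.2⟩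
  map_one' := rfl
  map_mul' _ _ := rfl
  map_zero' := rfl
  map_add' _ _ := rfl

@[simp] theorem coe_toB2 (x : subB2 B2 Bs) : ((toB2 B2 Bs x : B2) : F) = ((x : Bs) : F) := rfl

theorem toB2_injective : Function.Injective (toB2 B2 Bs) := by
  intro x y h
  apply Subtype.ext
  apply Subtype.ext
  exact congrArg (fun z : B2 => (z : F)) h

variable {B2 Bs}

theorem toB2_surjective (h : B2 ≤ Bs) : Function.Surjective (toB2 B2 Bs) := by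
  intro b
  exact ⟨⟨⟨(b : F), h b.2⟩, b.2⟩, rfl⟩

variable (Bs) in
/-- transport of an ideal of `B2` to `subB2` -/
def comapIdeal (𝔫 : Ideal B2) : Ideal (subB2 B2 Bs) := 𝔫.comap (toB2 B2 Bs)

theorem mem_comapIdeal (𝔫 : Ideal B2) (x : subB2 B2 Bs) :
    x ∈ comapIdeal Bs 𝔫 ↔ toB2 B2 Bs x ∈ 𝔫 := Iff.rfl

theorem comapIdeal_isMaximal (h : B2 ≤ Bs) (𝔫 : Ideal B2) [h𝔫 : 𝔫.IsMaximal] :
    (comapIdeal Bs 𝔫).IsMaximal :=
  Ideal.comap_isMaximal_of_surjective (toB2 B2 Bs) (toB2_surjective h)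

theorem comapIdeal_isPrime (𝔫 : Ideal B2) [𝔫.IsPrime] : (comapIdeal Bs 𝔫).IsPrime :=
  Ideal.comap_isPrime (toB2 B2 Bs) 𝔫

/-- **helper29's conclusion ⟹ `LocAt`.**  `𝔯` an ideal of `Bs` all of whose elements are small at
every vertical valuation, `Bs ≤ B12`. -/
theorem locAt_of_sub (B12 : Subring F) (hBs : Bs ≤ B12) (vert : Finset 𝒱) (𝔫 : Ideal B2)
    (𝔯 : Ideal Bs) (h𝔯 : ∀ z : Bs, z ∈ 𝔯 → ∀ j ∈ vert, (z : F) ∈ (V j).nonunits) {g : Bs}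
    (h : ∃ a b : subB2 B2 Bs, a ∉ comapIdeal Bs 𝔫 ∧ b ∉ comapIdeal Bs 𝔫 ∧
      ((a : Bs) * g - (b : Bs)) ∈ 𝔯) :
    LocAt V B2 B12 vert 𝔫 (g : F) := by
  obtain ⟨a, b, ha, hb, hab⟩ := h
  refine ⟨toB2 B2 Bs a, toB2 B2 Bs b, ha, hb, ?_, fun j hj => ?_⟩
  · exact hBs ((a : Bs) * g - (b : Bs)).2
  · exact h𝔯 _ hab j hj

end Sub

/-! ### the vertical radical as an additive subgroup -/

section Rad

/-- `𝔯 = {z ∈ B12 | ∀ j ∈ vert, z ∈ (V j).nonunits}` as an additive subgroup of `F`. -/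
def vertRad (B12 : Subring F) (vert : Finset 𝒱) : AddSubgroup F where
  carrier := {z | z ∈ B12 ∧ ∀ j ∈ vert, z ∈ (V j).nonunits}
  zero_mem' := ⟨B12.zero_mem, fun j _ => (V j).nonunits.zero_mem⟩
  add_mem' := fun ha hb => ⟨B12.add_mem ha.1 hb.1, fun j hj => (V j).nonunits.add_mem (ha.2 j hj) (hb.2 j hj)⟩
  neg_mem' := fun ha => ⟨B12.neg_mem ha.1, fun j hj => (V j).nonunits.neg_mem (ha.2 j hj)⟩

variable {V}

theorem mem_vertRad {B12 : Subring F} {vert : Finset 𝒱} {z : F} :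
    z ∈ vertRad V B12 vert ↔ z ∈ B12 ∧ ∀ j ∈ vert, z ∈ (V j).nonunits := Iff.rfl

/-- `hradmul` of `exists_section_ambient`. -/
theorem vertRad_mul_mem {B12 : Subring F} {vert : Finset 𝒱}
    (hB12V : ∀ j ∈ vert, ∀ b ∈ B12, b ∈ V j) {b x : F} (hb : b ∈ B12)
    (hx : x ∈ vertRad V B12 vert) : b * x ∈ vertRad V B12 vert :=
  ⟨B12.mul_mem hb hx.1, fun j hj => mul_mem_nonunits (hB12V j hj b hb) (hx.2 j hj)⟩

theorem locAt_iff_vertRad {B2 B12 : Subring F} {vert : Finset 𝒱} {𝔫 : Ideal B2} {g : F} :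
    LocAt V B2 B12 vert 𝔫 g ↔
      ∃ a b : B2, a ∉ 𝔫 ∧ b ∉ 𝔫 ∧ (a : F) * g - (b : F) ∈ vertRad V B12 vert := by
  constructor
  · rintro ⟨a, b, ha, hb, h1, h2⟩
    exact ⟨a, b, ha, hb, h1, h2⟩
  · rintro ⟨a, b, ha, hb, h1, h2⟩
    exact ⟨a, b, ha, hb, h1, h2⟩

end Rad

/-! ### the consumers' `hloc` -/

section Consumers

variable {V} {R0 : Type*} [CommRing R0] [Algebra R0 F]

/-- **`hloc` of helper28 `CechAmbient.exists_section_ambient`, VERBATIM**, with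
`rad := vertRad V B12.toSubring vert`. -/
theorem hloc_ambient (B12 B2 : Subalgebra R0 F) (M : Submodule R0 F) (vert : Finset 𝒱)
    (h : ∀ 𝔫 : Ideal B2.toSubring, 𝔫.IsMaximal →
      ∃ g ∈ M, LocAt V B2.toSubring B12.toSubring vert 𝔫 g) :
    ∀ 𝔫 : Ideal B2, 𝔫.IsMaximal →
      ∃ g ∈ M, ∃ a b : B2, a ∉ 𝔫 ∧ b ∉ 𝔫 ∧
        (a : F) * g - (b : F) ∈ vertRad V B12.toSubring vert := by
  intro 𝔫 h𝔫
  obtain ⟨g, hgM, a, b, ha, hb, h1, h2⟩ := h 𝔫 h𝔫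
  exact ⟨g, hgM, a, b, ha, hb, h1, h2⟩

/-- **the radical form** (helper33 `CechKummerField`): with (FR2)
`z ∈ vertRad ⟹ ∃ k, z ^ k ∈ q B12`. -/
theorem hloc_radical (B12 B2 : Subalgebra R0 F) (M : Submodule R0 F) (vert : Finset 𝒱) (q0 : R0)
    (hFR2 : ∀ z ∈ vertRad V B12.toSubring vert, ∃ k : ℕ, ∃ y ∈ B12, z ^ k = algebraMap R0 F q0 * y)
    (h : ∀ 𝔫 : Ideal B2.toSubring, 𝔫.IsMaximal →
      ∃ g ∈ M, LocAt V B2.toSubring B12.toSubring vert 𝔫 g) :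
    ∀ 𝔫 : Ideal B2, 𝔫.IsMaximal →
      ∃ g ∈ M, ∃ a b : B2, a ∉ 𝔫 ∧ b ∉ 𝔫 ∧
        ∃ k : ℕ, ∃ y ∈ B12, ((a : F) * g - (b : F)) ^ k = algebraMap R0 F q0 * y := by
  intro 𝔫 h𝔫
  obtain ⟨g, hgM, a, b, ha, hb, hab⟩ := hloc_ambient B12 B2 M vert h 𝔫 h𝔫
  exact ⟨g, hgM, a, b, ha, hb, hFR2 _ hab⟩

end Consumers

end Fermat.Agent.GL.LocToCech
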