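/-
GATE-L / (LOC) PLUGS (helper35): the two compositions through `LocToCech`, as named theorems.

* `exists_section_of_locAt` : helper28 `CechKummer.exists_section_ambient` with
  `rad := vertRad V B12 vert` and `hloc` replaced by `LocGlue.LocAt` at every maximal ideal of `B2`
  (`hradmul` discharged from `B12 ⊆ V j`).
* `locAt_of_frobGlue3` : helper29 `FrobGlue3.loc_frobGlue3_max` (three components, old triples, XI)
  with conclusion `LocGlue.LocAt V B2 B12 vert 𝔫 g`; `Bs ≤ F` the ring of elements with regular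
  reductions, `rd : Bs →+* C × C × C`, `𝔯 := ker rd`.
-/
import Fermat.Agent.GL.Loc.LocToCech
import Fermat.Agent.GL.Lattice.CechAmbient
import Fermat.Agent.GL.Fibre.LocOfCondMax

set_option autoImplicit false

namespace Fermat.Agent.GL.LocPlug

open Fermat.Agent.GL.LocToCech Fermat.Agent.GL.LocGlue Fermat.Agent.GL.CechKummer
open Fermat.Agent.GK.FrobGlue Fermat.Agent.GL.FrobGlue3

variable {F : Type*} [Field F] {𝒱 : Type*} (V : 𝒱 → ValuationSubring F) (vert : Finset 𝒱)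

/-- **Čech–Kummer with `(LOC)` in frame form.** -/
theorem exists_section_of_locAt {R0 : Type*} [CommRing R0] [Algebra R0 F] [IsNoetherianRing R0]
    (B12 B1 B2 : Subalgebra R0 F) (h1 : B1 ≤ B12) (h2 : B2 ≤ B12)
    (M : Submodule R0 F) (hM12 : ∀ f ∈ M, f ∈ B12) (hM : ∀ b ∈ B2, ∀ f ∈ M, b * f ∈ M)
    (q0 : R0)
    (hB12V : ∀ j ∈ vert, ∀ b ∈ B12.toSubring, b ∈ V j)
    (hqrad : algebraMap R0 F q0 ∈ vertRad V B12.toSubring vert)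
    (e : ℕ)
    (hrade : ∀ f : Fin e → F, (∀ i, f i ∈ vertRad V B12.toSubring vert) →
      ∃ z ∈ B12, ∏ i, f i = algebraMap R0 F q0 * z)
    (m m'' : ℕ) (hN : ((1 + m * m'' : ℕ) : F) ∈ vertRad V B12.toSubring vert)
    (u : F) (hu : u ∈ B1) (hu1 : u - 1 ∈ vertRad V B12.toSubring vert)
    (hum : ∀ f ∈ M, f ^ m * u ∈ B2)
    (h hinv : F) (hh : h * hinv = 1) (hh1 : h ∈ B1) (hh2 : hinv ∈ B2)
    {ι ι' : Type*} [Finite ι] (e1 : ι → F) (f : ι' → F) (he1 : ∀ i, e1 i ∈ B1)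
    (hB1 : ∀ x ∈ B1, x ∈ Submodule.span R0 {y | ∃ (k : ℕ) (i : ι), y = h ^ k * e1 i})
    (hf : ∀ j, f j ∈ M)
    (hMspan : ∀ y ∈ M, y ∈ Submodule.span R0 {y | ∃ (k : ℕ) (j : ι'), y = hinv ^ k * f j})
    (a' : ℕ) (ha' : ∀ j, h ^ a' * f j ∈ B1)
    (hB : ∀ z ∈ B12, ∃ (n : ℕ), ∃ y ∈ M, z = h ^ n * y)
    (hlocAt : ∀ 𝔫 : Ideal B2.toSubring, 𝔫.IsMaximal →
      ∃ g ∈ M, LocAt V B2.toSubring B12.toSubring vert 𝔫 g) :
    ∃ s, s ∈ B1 ∧ s ∈ M ∧ s - 1 ∈ vertRad V B12.toSubring vert :=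
  exists_section_ambient B12 B1 B2 h1 h2 M hM12 hM q0 (vertRad V B12.toSubring vert)
    (fun _ hb _ hx => vertRad_mul_mem hB12V hb hx) hqrad e hrade m m'' hN u hu hu1 hum h hinv hh
    hh1 hh2 e1 f he1 hB1 hf hMspan a' ha' hB (hloc_ambient B12 B2 M vert hlocAt)

/-- **(LOC) at a maximal ideal on the three-component fibre, in frame form** (helper29
`loc_frobGlue3_max` transported along `subB2`/`comapIdeal`). -/
theorem locAt_of_frobGlue3 {k C : Type*} [Field k] [CommRing C] [Algebra k C]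
    (Ψ : C →ₐ[k] C) (R : Subalgebra k (C × C × C))
    (h0 : ∀ f, ((f, Ψ (Ψ f), f) : C × C × C) ∈ R)
    (h1 : ∀ f, ((Ψ f, Ψ f, Ψ f) : C × C × C) ∈ R)
    (h2 : ∀ f, ((Ψ (Ψ f), f, f) : C × C × C) ∈ R)
    [IsAlgClosed k] [Algebra.FiniteType k C] [Module.Finite k (C ⧸ fixIdeal Ψ ^ 2)]
    (B2 Bs B12 : Subring F) (hB2s : B2 ≤ Bs) (hBs : Bs ≤ B12)
    (𝔫 : Ideal B2) [𝔫.IsMaximal] (rd : Bs →+* C × C × C)
    (hsmall : ∀ z : Bs, rd z = 0 → ∀ j ∈ vert, (z : F) ∈ (V j).nonunits)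
    (h𝔫ker : ∀ b : subB2 B2 Bs, rd (b : Bs) = 0 → b ∈ comapIdeal Bs 𝔫)
    (hB2 : ∀ b : subB2 B2 Bs, rd (b : Bs) ∈ R)
    (hR : ∀ r ∈ R, ∃ b : subB2 B2 Bs, rd (b : Bs) = r)
    {m : ℕ} (hm : (m : k) ≠ 0) {g : Bs} {w : subB2 B2 Bs} (hw : w ∉ comapIdeal Bs 𝔫)
    (hgw : g ^ m - (w : Bs) ∈ RingHom.ker rd)
    (hξ : ∀ φ φ' : C × C × C →ₐ[k] k, (∀ b ∈ comapIdeal Bs 𝔫, φ (rd (b : Bs)) = 0) →
      (∀ b ∈ comapIdeal Bs 𝔫, φ' (rd (b : Bs)) = 0) → φ (rd g) = φ' (rd g)) :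
    LocAt V B2 B12 vert 𝔫 (g : F) :=
  locAt_of_sub V B12 hBs vert 𝔫 (RingHom.ker rd) (fun z hz => hsmall z hz)
    (loc_frobGlue3_max Ψ R h0 h1 h2 (subB2 B2 Bs) (RingHom.ker rd) (comapIdeal Bs 𝔫)
      (comapIdeal_isMaximal hB2s 𝔫) rd (fun _ => Iff.rfl) h𝔫ker hB2 hR hm hw hgw hξ)

end Fermat.Agent.GL.LocPlug
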