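/-
GATE-L / L8' (LOC-III), the conductor hypothesis `hcond` of `LocBranch.loc_branch` /
`LocEv.loc_branch_of_ringHom` FROM helper29's `FrobGlue3` (helper35).

Abstract setting at ONE node `P` (a prime of the chart ring `C` of the level-`M'` curve containing
`fixIdeal Ψ`, with a function `h₀ ∉ P` such that `h₀ P ⊆ fixIdeal Ψ`: `P` is a SIMPLE point of
`V(fixIdeal Ψ)`; true for every node because `fixIdeal Ψ` is radical, K `FrobGlue.fixIdeal_isRadical`):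

* `A` (`= B2`) with `r : A →+* C × C × C` (the three reductions on the chart), whose image contains
  a subalgebra `R` with the three old triples (`h0 h1 h2` of `FrobGlue3`);
* `W` (`=` the semilocal branch ring `⋂ V' j`) with `φ : A →+* W` and the three reductions
  `ρ₁ ρ₂ ρ₃ : W →+* L` into the local ring `L = C_P`, compatible with `r`;
* `J` an ideal of `W` (`= branchJac`) with `ρ_j J ⊆ P L`.

`exists_cond` : for every `z ∈ J ^ 2` there are `c₀, b : A` with `(r c₀).1 ∉ P` and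
`ρ_j (φ c₀ * z - φ b) = 0` for `j = 1, 2, 3`.  [`ρ_j z = y_j / t_j`, `y_j ∈ P²`, `t_j ∉ P`;
`c₀ := d₀^*(t₁ t₃ h₀²) · d₂^*(t₂ h₀²)`; then `r(c₀) ρ(z) ∈ 𝔞² × 𝔞² × 𝔞² ⊆ R`.]
With `ker ρ_j = (V j).nonunits` this is `hcond` for `N = 2`.
-/
import Fermat.Agent.GL.Fibre.FrobGlue3

set_option autoImplicit false

namespace Fermat.Agent.GL.CondOfGlue3

open Fermat.Agent.GK.FrobGlue Fermat.Agent.GL.FrobGlue3

variable {k C : Type*} [Field k] [CommRing C] [Algebra k C] (Ψ : C →ₐ[k] C)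

/-- `h₀ P ⊆ 𝔞 ⟹ h₀² P² ⊆ 𝔞²`. -/
theorem sq_mul_mem_sq {𝔞 P : Ideal C} {h₀ : C} (hh₀P : ∀ y ∈ P, h₀ * y ∈ 𝔞) {y : C}
    (hy : y ∈ P ^ 2) : h₀ ^ 2 * y ∈ 𝔞 ^ 2 := by
  rw [pow_two] at hy
  refine Submodule.mul_induction_on hy ?_ ?_
  · intro p hp p' hp'
    have : h₀ ^ 2 * (p * p') = (h₀ * p) * (h₀ * p') := by ring
    rw [this, pow_two]
    exact Ideal.mul_mem_mul (hh₀P p hp) (hh₀P p' hp')
  · intro x y hx hy
    rw [mul_add]
    exact Ideal.add_mem _ hx hy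

variable (R : Subalgebra k (C × C × C))
  (h0 : ∀ f, ((f, Ψ (Ψ f), f) : C × C × C) ∈ R)
  (h1 : ∀ f, ((Ψ f, Ψ f, Ψ f) : C × C × C) ∈ R)
  (h2 : ∀ f, ((Ψ (Ψ f), f, f) : C × C × C) ∈ R)

include h0 h1 h2 in
/-- **The local conductor at a node.**  See the file header. -/
theorem exists_cond (P : Ideal C) [P.IsPrime] (hfixP : fixIdeal Ψ ≤ P)
    {h₀ : C} (hh₀ : h₀ ∉ P) (hh₀P : ∀ y ∈ P, h₀ * y ∈ fixIdeal Ψ)
    (L : Type*) [CommRing L] [Algebra C L] [IsLocalization.AtPrime L P]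
    {A W : Type*} [CommRing A] [CommRing W] (φ : A →+* W) (r : A →+* C × C × C)
    (hRr : ∀ x ∈ R, ∃ b : A, r b = x)
    (ρ1 ρ2 ρ3 : W →+* L)
    (hρ1 : ∀ b, ρ1 (φ b) = algebraMap C L (r b).1)
    (hρ2 : ∀ b, ρ2 (φ b) = algebraMap C L (r b).2.1)
    (hρ3 : ∀ b, ρ3 (φ b) = algebraMap C L (r b).2.2)
    (J : Ideal W)
    (hJ1 : ∀ z ∈ J, ρ1 z ∈ P.map (algebraMap C L))
    (hJ2 : ∀ z ∈ J, ρ2 z ∈ P.map (algebraMap C L))
    (hJ3 : ∀ z ∈ J, ρ3 z ∈ P.map (algebraMap C L))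
    {z : W} (hz : z ∈ J ^ 2) :
    ∃ c₀ : A, (r c₀).1 ∉ P ∧ ∃ b : A,
      ρ1 (φ c₀ * z - φ b) = 0 ∧ ρ2 (φ c₀ * z - φ b) = 0 ∧ ρ3 (φ c₀ * z - φ b) = 0 := by
  -- `ρ_j z ∈ (P²) L`
  have hsq : ∀ (ρ : W →+* L), (∀ z ∈ J, ρ z ∈ P.map (algebraMap C L)) →
      ρ z ∈ (P ^ 2).map (algebraMap C L) := by
    intro ρ hρ
    have h3 : J.map ρ ≤ P.map (algebraMap C L) := by
      rw [Ideal.map_le_iff_le_comap]
      intro w hw
      exact hρ w hw
    have h4 : ρ z ∈ (J ^ 2).map ρ := Ideal.mem_map_of_mem ρ hz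
    rw [Ideal.map_pow] at h4
    rw [Ideal.map_pow]
    exact Ideal.pow_right_mono h3 2 h4
  -- fractions
  have hfrac : ∀ x : L, x ∈ (P ^ 2).map (algebraMap C L) →
      ∃ y ∈ P ^ 2, ∃ t : C, t ∉ P ∧ algebraMap C L t * x = algebraMap C L y := by
    intro x hx
    rw [IsLocalization.mem_map_algebraMap_iff P.primeCompl] at hx
    obtain ⟨⟨y, t⟩, hyt⟩ := hx
    exact ⟨y.1, y.2, t.1, t.2, by rw [mul_comm]; exact hyt⟩
  obtain ⟨y1, hy1, t1, ht1, e1⟩ := hfrac _ (hsq ρ1 hJ1)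
  obtain ⟨y2, hy2, t2, ht2, e2⟩ := hfrac _ (hsq ρ2 hJ2)
  obtain ⟨y3, hy3, t3, ht3, e3⟩ := hfrac _ (hsq ρ3 hJ3)
  -- the multiplier
  set h : C := t1 * t3 * h₀ ^ 2 with hh
  set h' : C := t2 * h₀ ^ 2 with hh'
  have mulP : ∀ {a b : C}, a ∉ P → b ∉ P → a * b ∉ P := fun ha hb hab =>
    (Ideal.IsPrime.mem_or_mem ‹_› hab).elim ha hb
  have hh₀2 : h₀ ^ 2 ∉ P := fun hmem => hh₀ (Ideal.IsPrime.mem_of_pow_mem ‹_› 2 hmem)
  have hhP : h ∉ P := mulP (mulP ht1 ht3) hh₀2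
  have hh'P : h' ∉ P := mulP ht2 hh₀2
  have hΨ : ∀ f : C, f ∉ P → Ψ (Ψ f) ∉ P := by
    intro f hf hΨf
    apply hf
    have : f = (f - Ψ (Ψ f)) + Ψ (Ψ f) := by ring
    rw [this]
    exact P.add_mem (hfixP (sub_mem_fixIdeal Ψ f)) hΨf
  obtain ⟨b0, hb0⟩ := hRr _ (h0 h)
  obtain ⟨b2, hb2⟩ := hRr _ (h2 h')
  -- the three numerators
  set x1 : C := Ψ (Ψ h') * t3 * (h₀ ^ 2 * y1) with hx1
  set x2 : C := Ψ (Ψ h) * (h₀ ^ 2 * y2) with hx2
  set x3 : C := h' * t1 * (h₀ ^ 2 * y3) with hx3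
  have hx1m : x1 ∈ fixIdeal Ψ ^ 2 := Ideal.mul_mem_left _ _ (sq_mul_mem_sq hh₀P hy1)
  have hx2m : x2 ∈ fixIdeal Ψ ^ 2 := Ideal.mul_mem_left _ _ (sq_mul_mem_sq hh₀P hy2)
  have hx3m : x3 ∈ fixIdeal Ψ ^ 2 := Ideal.mul_mem_left _ _ (sq_mul_mem_sq hh₀P hy3)
  have hxR : ((x1, x2, x3) : C × C × C) ∈ R := by
    have := conductor_mul_mem Ψ R h0 h1 h2 hx1m hx2m hx3m 1
    rwa [mul_one] at this
  obtain ⟨b, hb⟩ := hRr _ hxR
  refine ⟨b0 * b2, ?_, b, ?_, ?_, ?_⟩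
  · rw [map_mul, hb0, hb2]
    exact mulP hhP (hΨ h' hh'P)
  · have hc : ρ1 (φ (b0 * b2)) = algebraMap C L h * algebraMap C L (Ψ (Ψ h')) := by
      rw [map_mul, map_mul, hρ1, hρ1, hb0, hb2]
    rw [map_sub, map_mul, hc, hρ1, hb, sub_eq_zero]
    show algebraMap C L h * algebraMap C L (Ψ (Ψ h')) * ρ1 z = algebraMap C L x1
    have ex : algebraMap C L x1 = algebraMap C L (Ψ (Ψ h')) * algebraMap C L t3 *
        (algebraMap C L (h₀ ^ 2) * algebraMap C L y1) := by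
      simp only [hx1, map_mul]
    have eh : algebraMap C L h = algebraMap C L t1 * algebraMap C L t3 * algebraMap C L (h₀ ^ 2) := by
      simp only [hh, map_mul]
    rw [ex, eh, ← e1]
    ring
  · have hc : ρ2 (φ (b0 * b2)) = algebraMap C L (Ψ (Ψ h)) * algebraMap C L h' := by
      rw [map_mul, map_mul, hρ2, hρ2, hb0, hb2]
    rw [map_sub, map_mul, hc, hρ2, hb, sub_eq_zero]
    show algebraMap C L (Ψ (Ψ h)) * algebraMap C L h' * ρ2 z = algebraMap C L x2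
    have ex : algebraMap C L x2 = algebraMap C L (Ψ (Ψ h)) *
        (algebraMap C L (h₀ ^ 2) * algebraMap C L y2) := by
      simp only [hx2, map_mul]
    have eh : algebraMap C L h' = algebraMap C L t2 * algebraMap C L (h₀ ^ 2) := by
      simp only [hh', map_mul]
    rw [ex, eh, ← e2]
    ring
  · have hc : ρ3 (φ (b0 * b2)) = algebraMap C L h * algebraMap C L h' := by
      rw [map_mul, map_mul, hρ3, hρ3, hb0, hb2]
    rw [map_sub, map_mul, hc, hρ3, hb, sub_eq_zero]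
    show algebraMap C L h * algebraMap C L h' * ρ3 z = algebraMap C L x3
    have ex : algebraMap C L x3 = algebraMap C L h' * algebraMap C L t1 *
        (algebraMap C L (h₀ ^ 2) * algebraMap C L y3) := by
      simp only [hx3, map_mul]
    have eh : algebraMap C L h = algebraMap C L t1 * algebraMap C L t3 * algebraMap C L (h₀ ^ 2) := by
      simp only [hh, map_mul]
    rw [ex, eh, ← e3]
    ring

end Fermat.Agent.GL.CondOfGlue3
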