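/-
GATE-L / (LOC) PLUG, FIELD FORM (helper35): helper33's `CechKummerField.exists_root_of_loc` with its
`hloc` binder produced from `LocGlue.LocAt` (frame form) + (FR2).

* `hloc_field` : `LocAt V B2 B12 vert 𝔫 g` at every maximal ideal of `B2 = IC R0 {h⁻¹}`
  (`B12 = IC R0 {h, h⁻¹}`, `g ∈ Msec R0 h u m hm`) + (FR2) `z ∈ vertRad ⟹ ∃ k, z ^ k ∈ q0 B12`
  ⟹ the `hloc` binder of `exists_root_of_loc` VERBATIM.
* `exists_root_of_locAt` : the composition.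
-/
import Fermat.Agent.GL.Loc.LocToCech
import Fermat.Agent.GL.Lattice.CechKummerField

set_option autoImplicit false

namespace Fermat.Agent.GL.LocPlugField

open Fermat.Agent.GL.LocToCech Fermat.Agent.GL.LocGlue Fermat.Agent.GL.CechKummerField

variable {R0 F0 : Type*} [CommRing R0] [Field F0] [Algebra R0 F0]
  {𝒱 : Type*} (V : 𝒱 → ValuationSubring F0) (vert : Finset 𝒱)

/-- **`hloc` of `CechKummerField.exists_root_of_loc` from `LocAt` + (FR2).** -/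
theorem hloc_field (h u : F0) {m : ℕ} (hm : 0 < m) (q0 : R0)
    (hFR2 : ∀ z ∈ vertRad V (IC R0 {h, h⁻¹}).toSubring vert,
      ∃ k : ℕ, ∃ c ∈ IC R0 {h, h⁻¹}, z ^ k = algebraMap R0 F0 q0 * c)
    (hlocAt : ∀ 𝔫 : Ideal (IC R0 {h⁻¹}).toSubring, 𝔫.IsMaximal →
      ∃ g ∈ Msec R0 h u m hm,
        LocAt V (IC R0 {h⁻¹}).toSubring (IC R0 {h, h⁻¹}).toSubring vert 𝔫 g) :
    ∀ 𝔫 : Ideal ↥(IC R0 {h⁻¹}), 𝔫.IsMaximal → ∃ g ∈ Msec R0 h u m hm,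
      ∃ a b : ↥(IC R0 {h⁻¹}), a ∉ 𝔫 ∧ b ∉ 𝔫 ∧ InRad q0 h ((a : F0) * g - (b : F0)) := by
  intro 𝔫 h𝔫
  obtain ⟨g, hgM, a, b, ha, hb, h1, h2⟩ := hlocAt 𝔫 h𝔫
  exact ⟨g, hgM, a, b, ha, hb, h1, hFR2 _ ⟨h1, h2⟩⟩

/-- **Čech–Kummer in field form with `(LOC)` in frame form.** -/
theorem exists_root_of_locAt [IsNoetherianRing R0] {h : F0} (hh : h ≠ 0)
    [Module.Finite ↥(Algebra.adjoin R0 {h}) ↥(integralClosure ↥(Algebra.adjoin R0 {h}) F0)]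
    [Module.Finite ↥(Algebra.adjoin R0 {h⁻¹}) ↥(integralClosure ↥(Algebra.adjoin R0 {h⁻¹}) F0)]
    (q0 : R0) (hq : ¬ InRad q0 h 1) {m m'' : ℕ} (hm : 0 < m)
    (hN : q0 ∣ ((1 + m * m'' : ℕ) : R0))
    {u : F0} (hu : u ∈ IC R0 {h}) (hu1 : InRad q0 h (u - 1))
    (hFR2 : ∀ z ∈ vertRad V (IC R0 {h, h⁻¹}).toSubring vert,
      ∃ k : ℕ, ∃ c ∈ IC R0 {h, h⁻¹}, z ^ k = algebraMap R0 F0 q0 * c)
    (hlocAt : ∀ 𝔫 : Ideal (IC R0 {h⁻¹}).toSubring, 𝔫.IsMaximal →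
      ∃ g ∈ Msec R0 h u m hm,
        LocAt V (IC R0 {h⁻¹}).toSubring (IC R0 {h, h⁻¹}).toSubring vert 𝔫 g) :
    ∃ s g : F0, s ≠ 0 ∧ g ≠ 0 ∧ s ^ m * u = g ∧ s ∈ IC R0 {h} ∧ s ∈ Msec R0 h u m hm ∧
      InRad q0 h (s - 1) ∧ g ∈ IC R0 {h} ∧ g ∈ IC R0 {h⁻¹} ∧ InRad q0 h (g - 1) ∧
      ∀ O : ValuationSubring F0, (∀ r : R0, algebraMap R0 F0 r ∈ O) → g ∈ O :=
  exists_root_of_loc hh q0 hq hm hN hu hu1 (hloc_field V vert h u hm q0 hFR2 hlocAt)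

end Fermat.Agent.GL.LocPlugField
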