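/-
GATE-L / H5 CORE (helper35): dispatcher ∘ field-form Čech–Kummer, ONE theorem.

`B2 := (IC R0 {h⁻¹}).toSubring`, `B12 := (IC R0 {h, h⁻¹}).toSubring` (helper33 `CechKummerField`),
height-one frame `V1 F0` on `B2` (helper80), `vert` = the height-one primes containing `q`;
the typed (LOC) contracts `hI` (helper47 `LocTypeI.exists_locAt`) and `hIII`
(`XiOfBranch.locAt_of_branch` / `LocTypeIII.loc_typeIII`) in the binder shapes of helper47's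
`LocDispatch.exists_locAt_all`, and (FR2).

`exists_root_of_contracts` : the conclusion of `CechKummerField.exists_root_of_loc`.
-/
import Fermat.Agent.GL.Loc.LocPlugField
import Fermat.Agent.GL.Frame.LocDispatch

set_option autoImplicit false

namespace Fermat.Agent.GL.H5Core

open Fermat.Agent.GL.LocToCech Fermat.Agent.GL.LocGlue Fermat.Agent.GL.CechKummerField
  Fermat.Agent.GL.Frame.HeightOne Fermat.Agent.GL.Frame.LocDispatch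

variable {R0 F0 : Type*} [CommRing R0] [Field F0] [Algebra R0 F0]

/-- **H5 core.** -/
theorem exists_root_of_contracts [IsNoetherianRing R0] {h : F0} (hh : h ≠ 0)
    [Module.Finite ↥(Algebra.adjoin R0 {h}) ↥(integralClosure ↥(Algebra.adjoin R0 {h}) F0)]
    [Module.Finite ↥(Algebra.adjoin R0 {h⁻¹}) ↥(integralClosure ↥(Algebra.adjoin R0 {h⁻¹}) F0)]
    [IsFractionRing ↥(IC R0 {h⁻¹}).toSubring F0] [IsNoetherianRing ↥(IC R0 {h⁻¹}).toSubring]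
    [IsIntegrallyClosed ↥(IC R0 {h⁻¹}).toSubring]
    (q0 : R0) (hq : ¬ InRad q0 h 1) {m m'' : ℕ} (hm : 0 < m)
    (hN : q0 ∣ ((1 + m * m'' : ℕ) : R0))
    {u : F0} (hu : u ∈ IC R0 {h}) (hu1 : InRad q0 h (u - 1))
    (vert : Finset (HtOne ↥(IC R0 {h⁻¹}).toSubring))
    {q : ↥(IC R0 {h⁻¹}).toSubring} (hq0 : q ≠ 0)
    (hvert : ∀ 𝔭 : HtOne ↥(IC R0 {h⁻¹}).toSubring, q ∈ 𝔭.1 → 𝔭 ∈ vert)
    (hqv : ∀ j ∈ vert, q ∈ j.1)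
    (hle : (IC R0 {h⁻¹}).toSubring ≤ (IC R0 {h, h⁻¹}).toSubring)
    (hFR2 : ∀ z ∈ vertRad (V1 (B := ↥(IC R0 {h⁻¹}).toSubring) F0)
        (IC R0 {h, h⁻¹}).toSubring vert,
      ∃ k : ℕ, ∃ c ∈ IC R0 {h, h⁻¹}, z ^ k = algebraMap R0 F0 q0 * c)
    (hI : ∀ 𝔫 : Ideal ↥(IC R0 {h⁻¹}).toSubring, 𝔫.IsMaximal → ∀ 𝔭₀ ∈ vert, 𝔭₀.1 ≤ 𝔫 →
      (∀ j ∈ vert, j ≠ 𝔭₀ → ¬ j.1 ≤ 𝔫) →
      ∃ g ∈ (IC R0 {h, h⁻¹}).toSubring, g ^ m * u ∈ (IC R0 {h⁻¹}).toSubring ∧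
        LocAt (V1 (B := ↥(IC R0 {h⁻¹}).toSubring) F0) (IC R0 {h⁻¹}).toSubring
          (IC R0 {h, h⁻¹}).toSubring vert 𝔫 g)
    (hIII : ∀ 𝔫 : Ideal ↥(IC R0 {h⁻¹}).toSubring, 𝔫.IsMaximal → ∀ i ∈ vert, ∀ j ∈ vert, i ≠ j →
      i.1 ≤ 𝔫 → j.1 ≤ 𝔫 →
      ∃ g ∈ (IC R0 {h, h⁻¹}).toSubring, g ^ m * u ∈ (IC R0 {h⁻¹}).toSubring ∧
        LocAt (V1 (B := ↥(IC R0 {h⁻¹}).toSubring) F0) (IC R0 {h⁻¹}).toSubring
          (IC R0 {h, h⁻¹}).toSubring vert 𝔫 g) :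
    ∃ s g : F0, s ≠ 0 ∧ g ≠ 0 ∧ s ^ m * u = g ∧ s ∈ IC R0 {h} ∧ s ∈ Msec R0 h u m hm ∧
      InRad q0 h (s - 1) ∧ g ∈ IC R0 {h} ∧ g ∈ IC R0 {h⁻¹} ∧ InRad q0 h (g - 1) ∧
      ∀ O : ValuationSubring F0, (∀ r : R0, algebraMap R0 F0 r ∈ O) → g ∈ O := by
  refine Fermat.Agent.GL.LocPlugField.exists_root_of_locAt
    (V1 (B := ↥(IC R0 {h⁻¹}).toSubring) F0) vert hh q0 hq hm hN hu hu1 hFR2 ?_
  intro 𝔫 h𝔫
  obtain ⟨g, hg12, hgu, hloc⟩ := exists_locAt_all (IC R0 {h, h⁻¹}).toSubring hle vert hq0 hvert hqv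
    (Nat.pos_iff_ne_zero.mp hm) hI hIII 𝔫 h𝔫
  exact ⟨g, ⟨hg12, hgu⟩, hloc⟩

end Fermat.Agent.GL.H5Core
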