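/-
GATE-L / L8' (LOC)-GLUE, contract (LOC-III) in its USEFUL form (helper35).

CORRECTION to `LocGlue.loc_multibranch` / `LocGlue.loc_chars`: there the hypothesis `huO`
(`u` a unit at EVERY valuation over `𝔫`) puts the local generator `g` into `O_𝔫ˣ`, and then (LOC) at
`𝔫` is trivial (`a g = b` exactly).  At a crossing point the local generator (`g = s β₀` after MOVE
and re-normalisation, or `g = g_x` a local equation of the Kummer divisor) is NOT in `O_𝔫`: only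
its reductions `rd_j g` are units at the branch points `x_j`.  The right ambient ring is the
semilocal ring `⋂ V' j` of the RANK-TWO branch valuation rings
`V' j = {z ∈ V j | rd_j z is regular at x_j} ≤ V j`, `j ∈ br 𝔫`, exactly as in helper48's contract
(STACK RULING 2, board 2764 (2)): "`z ∈ F_L`, a unit of `V i`, regular at the branch".

* `loc_of_multibranch_hom'` : `LocGlue.loc_of_multibranch_hom` with the conductor hypothesis in the
  weaker form `∀ z ∈ I ^ N, ∃ c₀ ∉ 𝔫, ∃ b, φ c₀ * z - φ b ∈ 𝔯` (the multiplier MAY DEPEND ON `z`;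
  necessary because elements of the semilocal ring have arbitrary denominators away from `x_j`).
* `branchRing br V'`, `branchRad` (vertical radical), `branchJac` (Jacobson radical).
* `loc_branch` : **(LOC-III)**.  Inputs: branch rings `V' j ≤ V j` containing `B2` with centre `𝔫`
  on `B2`; separators for the vertical valuations not through `𝔫`; `u ≡ 1` at the vertical
  valuations; `g ∈ B12`, `g ^ m * u = c ∈ B2 ∖ 𝔫`; `m ∉ 𝔫`; conductor `hcond`; `ξ_𝔫 = 1` in the form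
  `g - b₀ ∈ (V' j).nonunits` for ONE `b₀ ∈ B2 ∖ 𝔫`.  Output `LocGlue.LocAt V B2 B12 vert 𝔫 g`.
-/
import Fermat.Agent.GL.Loc.LocGlue

set_option autoImplicit false

namespace Fermat.Agent.GL.LocBranch

open Fermat.Agent.GL.KrullFrame Fermat.Agent.GL.LocGlue

section Hom

variable {A B : Type*} [CommRing A] [CommRing B] (φ : A →+* B)

/-- `LocGlue.loc_of_multibranch_hom` with a conductor multiplier depending on the element. -/
theorem loc_of_multibranch_hom' (𝔯 : Ideal B) (𝔫 : Ideal A) [𝔫.IsPrime]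
    (I : Ideal B) (h𝔯I : 𝔯 ≤ I) (hI𝔫 : ∀ b : A, φ b ∈ I → b ∈ 𝔫)
    {m : ℕ} (hm : (m : A) ∉ 𝔫)
    (N : ℕ) (hcond : ∀ z ∈ I ^ N, ∃ c₀ : A, c₀ ∉ 𝔫 ∧ ∃ b : A, φ c₀ * z - φ b ∈ 𝔯)
    {g : B} {w : A} (hgw : g ^ m - φ w ∈ 𝔯)
    {b₀ : A} (hb₀ : b₀ ∉ 𝔫) (hgb : g - φ b₀ ∈ I) :
    ∃ a b : A, a ∉ 𝔫 ∧ b ∉ 𝔫 ∧ φ a * g - φ b ∈ 𝔯 := by
  have h1𝔫 : (1 : A) ∉ 𝔫 := fun h => (Ideal.IsPrime.ne_top ‹_›) ((Ideal.eq_top_iff_one 𝔫).mpr h)
  -- filtration step: the landed lemma modulo `I ^ (N + 1) ⊔ 𝔯`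
  have hle : I ^ (N + 1) ⊔ 𝔯 ≤ I := sup_le (Ideal.pow_le_self (Nat.succ_ne_zero N)) h𝔯I
  obtain ⟨a, b, ha, hb, hab⟩ := loc_of_multibranch_hom φ (I ^ (N + 1) ⊔ 𝔯) 𝔫 I hle hI𝔫 hm
    (N + 1) 1 h1𝔫
    (fun z hz => ⟨0, by
      rw [map_one, one_mul, map_zero, sub_zero]
      exact Ideal.mem_sup_left hz⟩)
    (Ideal.mem_sup_right hgw) hb₀ hgb
  -- conductor step
  obtain ⟨z, hz, ρ, hρ, hzρ⟩ := Submodule.mem_sup.mp hab
  have hzN : z ∈ I ^ N := Ideal.pow_le_pow_right (Nat.le_succ N) hz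
  have hzI : z ∈ I := Ideal.pow_le_self (Nat.succ_ne_zero N) hz
  obtain ⟨c₀, hc₀, b', hb'⟩ := hcond z hzN
  have hb'𝔫 : b' ∈ 𝔫 := by
    apply hI𝔫
    have : φ b' = φ c₀ * z - (φ c₀ * z - φ b') := by ring
    rw [this]
    exact Ideal.sub_mem _ (Ideal.mul_mem_left _ _ hzI) (h𝔯I hb')
  refine ⟨c₀ * a, c₀ * b + b', mul_notMem hc₀ ha, ?_, ?_⟩
  · intro h
    have : c₀ * b ∈ 𝔫 := by
      have h1 : c₀ * b = (c₀ * b + b') - b' := by ring
      rw [h1]
      exact 𝔫.sub_mem h hb'𝔫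
    exact mul_notMem hc₀ hb this
  · have h1 : φ (c₀ * a) * g - φ (c₀ * b + b') = (φ c₀ * z - φ b') + φ c₀ * ρ := by
      rw [map_mul, map_add, map_mul]
      have : φ a * g - φ b = z + ρ := hzρ.symm
      linear_combination φ c₀ * this
    rw [h1]
    exact 𝔯.add_mem hb' (𝔯.mul_mem_left _ hρ)

end Hom

section Branch

variable {F : Type*} [Field F] {𝒱 : Type*}

/-- the semilocal ring `⋂_{j ∈ br} V' j` of the branch valuation rings. -/
def branchRing (br : Finset 𝒱) (V' : 𝒱 → ValuationSubring F) : Subring F where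
  carrier := {z | ∀ j ∈ br, z ∈ V' j}
  mul_mem' := fun ha hb j hj => (V' j).mul_mem _ _ (ha j hj) (hb j hj)
  one_mem' := fun j _ => (V' j).one_mem
  add_mem' := fun ha hb j hj => (V' j).add_mem _ _ (ha j hj) (hb j hj)
  zero_mem' := fun j _ => (V' j).zero_mem
  neg_mem' := fun ha j hj => (V' j).neg_mem _ (ha j hj)

/-- its Jacobson radical: functions vanishing at all branch points. -/
def branchJac (br : Finset 𝒱) (V' : 𝒱 → ValuationSubring F) : Ideal (branchRing br V') where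
  carrier := {z | ∀ j ∈ br, (z : F) ∈ (V' j).nonunits}
  add_mem' := fun {a b} ha hb j hj => by
    push_cast
    exact (V' j).nonunits.add_mem (ha j hj) (hb j hj)
  zero_mem' := fun j _ => by
    push_cast
    exact (V' j).nonunits.zero_mem
  smul_mem' := fun c z hz j hj => by
    rw [smul_eq_mul]
    push_cast
    exact mul_mem_nonunits (c.2 j hj) (hz j hj)

/-- its vertical radical: functions vanishing identically on all branches. -/
def branchRad (br : Finset 𝒱) (V V' : 𝒱 → ValuationSubring F) (hV' : ∀ j ∈ br, V' j ≤ V j) :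
    Ideal (branchRing br V') where
  carrier := {z | ∀ j ∈ br, (z : F) ∈ (V j).nonunits}
  add_mem' := fun {a b} ha hb j hj => by
    push_cast
    exact (V j).nonunits.add_mem (ha j hj) (hb j hj)
  zero_mem' := fun j _ => by
    push_cast
    exact (V j).nonunits.zero_mem
  smul_mem' := fun c z hz j hj => by
    rw [smul_eq_mul]
    push_cast
    exact mul_mem_nonunits (hV' j hj (c.2 j hj)) (hz j hj)

/-- `V' ≤ V` ⟹ the maximal ideal of `V` lies in the maximal ideal of `V'`. -/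
theorem nonunits_le_of_le {W' W : ValuationSubring F} (h : W' ≤ W) {z : F}
    (hz : z ∈ W.nonunits) : z ∈ W'.nonunits :=
  (ValuationSubring.nonunits_le_nonunits.mpr h) hz

variable {V : 𝒱 → ValuationSubring F} {B2 : Subring F}

/-- **(LOC-III).**  See the file header. -/
theorem loc_branch (B12 : Subring F) (hle : B2 ≤ B12) (vert : Finset 𝒱) (𝔫 : Ideal B2) [𝔫.IsPrime]
    (hB2V : ∀ j ∈ vert, ∀ b : B2, (b : F) ∈ V j)
    (V' : 𝒱 → ValuationSubring F) (br : Finset 𝒱) (hbrne : br.Nonempty) (hbr : br ⊆ vert)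
    (hV' : ∀ j ∈ br, V' j ≤ V j)
    (hB2V' : ∀ j ∈ br, ∀ b : B2, (b : F) ∈ V' j)
    (hcentre : ∀ j ∈ br, ∀ b : B2, (b : F) ∈ (V' j).nonunits → b ∈ 𝔫)
    (hsep : ∀ j ∈ vert, j ∉ br → ∃ e : B2, e ∉ 𝔫 ∧ (e : F) ∈ (V j).nonunits)
    {m : ℕ} (hm : (m : B2) ∉ 𝔫) {u : F} (hu : ∀ j ∈ vert, u - 1 ∈ (V j).nonunits)
    {g : F} (hgB : g ∈ B12) {c : B2} (hgc : g ^ m * u = c)
    (N : ℕ)
    (hcond : ∀ z ∈ (branchJac br V') ^ N, ∃ c₀ : B2, c₀ ∉ 𝔫 ∧ ∃ b : B2,
      ∀ j ∈ br, (c₀ : F) * (z : F) - (b : F) ∈ (V j).nonunits)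
    {b₀ : B2} (hb₀ : b₀ ∉ 𝔫) (hξ : ∀ j ∈ br, g - (b₀ : F) ∈ (V' j).nonunits) :
    LocAt V B2 B12 vert 𝔫 g := by
  classical
  have hm0 : m ≠ 0 := by
    rintro rfl
    exact hm (by simp)
  -- `g` lies in every vertical valuation ring and in the branch rings
  have hgV : ∀ j ∈ vert, g ∈ V j := fun j hj =>
    gen_mem (hB2V j hj) hm0 (inv_mem_of_sub_one_mem (hu j hj)).2
      (ne_zero_of_sub_one_mem (hu j hj)) hgc
  have hgV' : ∀ j ∈ br, g ∈ V' j := fun j hj =>
    gen_mem (hB2V' j hj) hm0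
      (inv_mem_of_sub_one_mem (nonunits_le_of_le (hV' j hj) (hu j (hbr hj)))).2
      (ne_zero_of_sub_one_mem (hu j (hbr hj))) hgc
  -- the inclusion `B2 → branchRing`
  have hB2le : B2 ≤ branchRing br V' := fun b hb j hj => hB2V' j hj ⟨b, hb⟩
  set φ : B2 →+* branchRing br V' := Subring.inclusion hB2le with hφ
  have hφc : ∀ b : B2, ((φ b : branchRing br V') : F) = (b : F) := fun _ => rfl
  set G : branchRing br V' := ⟨g, hgV'⟩ with hG
  have hrJ : branchRad br V V' hV' ≤ branchJac br V' := by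
    intro z hz j hj
    exact nonunits_le_of_le (hV' j hj) (hz j hj)
  have hcen : ∀ b : B2, φ b ∈ branchJac br V' → b ∈ 𝔫 := by
    intro b hbI
    obtain ⟨j, hj⟩ := hbrne
    exact hcentre j hj b (hbI j hj)
  have hcond' : ∀ z ∈ (branchJac br V') ^ N, ∃ c₀ : B2, c₀ ∉ 𝔫 ∧ ∃ b : B2,
      φ c₀ * z - φ b ∈ branchRad br V V' hV' := by
    intro z hz
    obtain ⟨c₀, hc₀, b, hb⟩ := hcond z hz
    exact ⟨c₀, hc₀, b, fun j hj => hb j hj⟩
  have hgw : G ^ m - φ c ∈ branchRad br V V' hV' := by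
    intro j hj
    show g ^ m - (c : F) ∈ (V j).nonunits
    exact gen_pow_sub_mem (hgV j (hbr hj)) (hu j (hbr hj)) hgc
  have hgb : G - φ b₀ ∈ branchJac br V' := by
    intro j hj
    exact hξ j hj
  obtain ⟨a, b, ha, hb, hab⟩ := loc_of_multibranch_hom' φ (branchRad br V V' hV') 𝔫
    (branchJac br V') hrJ hcen hm N hcond' hgw hb₀ hgb
  -- separators of the vertical valuations not through `𝔫`
  choose! e he𝔫 he using hsep
  set E : B2 := ∏ j ∈ vert \ br, e j with hE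
  have hE𝔫 : E ∉ 𝔫 := by
    intro h
    rw [hE, Ideal.IsPrime.prod_mem_iff] at h
    obtain ⟨j, hj, hj𝔫⟩ := h
    rw [Finset.mem_sdiff] at hj
    exact he𝔫 j hj.1 hj.2 hj𝔫
  have key : ((E * a : B2) : F) * g - ((E * b : B2) : F)
      = (E : F) * ((a : F) * g - (b : F)) := by
    push_cast; ring
  refine ⟨E * a, E * b, mul_notMem hE𝔫 ha, mul_notMem hE𝔫 hb, ?_, fun j hj => ?_⟩
  · exact B12.sub_mem (B12.mul_mem (hle (E * a).2) hgB) (hle (E * b).2)
  · rw [key]
    by_cases hjb : j ∈ br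
    · exact mul_mem_nonunits (hB2V j hj E) (hab j hjb)
    · have hjm : j ∈ vert \ br := Finset.mem_sdiff.mpr ⟨hj, hjb⟩
      have h1 : (E : F) = ((∏ l ∈ (vert \ br).erase j, e l : B2) : F) * (e j : F) := by
        rw [hE, ← Finset.mul_prod_erase _ e hjm]
        push_cast
        ring
      have h2 : (a : F) * g - (b : F) ∈ V j :=
        sub_mem ((V j).mul_mem _ _ (hB2V j hj a) (hgV j hj)) (hB2V j hj b)
      rw [h1, mul_assoc, mul_comm (e j : F), ← mul_assoc]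
      exact mul_mem_nonunits ((V j).mul_mem _ _ (hB2V j hj _) h2) (he j hj hjb)

end Branch

end Fermat.Agent.GL.LocBranch
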