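/-
GATE-L / L8' (LOC)-GLUE (helper35): `LocBranch.loc_branch` with the branch data given by
EVALUATION HOMOMORPHISMS `e j : V' j →+* k` of the rank-two branch valuation rings (the shape
produced by helper46 `CompBranch.resComp` composed with the evaluation at the branch point, and
consumed by `XiStep.Branch.ofRingHom`).

`loc_branch_of_ringHom` : the `e j` have kernel the maximal ideal of `V' j`, restrict on `B2` to
ONE surjective character with kernel `𝔫`; `ξ_𝔫 = 1` reads `e i g = e j g`.  The hypotheses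
`hcentre`, `b₀`, `hξ` of `loc_branch` are produced from these.
-/
import Fermat.Agent.GL.Loc.LocBranch

set_option autoImplicit false

namespace Fermat.Agent.GL.LocEv

open Fermat.Agent.GL.LocGlue Fermat.Agent.GL.LocBranch

variable {F : Type*} [Field F] {𝒱 : Type*} {V : 𝒱 → ValuationSubring F} {B2 : Subring F}

/-- **(LOC-III) from evaluation homomorphisms.** -/
theorem loc_branch_of_ringHom (B12 : Subring F) (hle : B2 ≤ B12) (vert : Finset 𝒱)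
    (𝔫 : Ideal B2) [𝔫.IsPrime]
    (hB2V : ∀ j ∈ vert, ∀ b : B2, (b : F) ∈ V j)
    (V' : 𝒱 → ValuationSubring F) (br : Finset 𝒱) (hbrne : br.Nonempty) (hbr : br ⊆ vert)
    (hV' : ∀ j ∈ br, V' j ≤ V j)
    (hB2V' : ∀ j ∈ br, ∀ b : B2, (b : F) ∈ V' j)
    {k : Type*} [Field k] (e : ∀ j, V' j →+* k)
    (heker : ∀ j ∈ br, ∀ z : V' j, e j z = 0 ↔ (z : F) ∈ (V' j).nonunits)
    (heB2 : ∀ j ∈ br, ∀ (b : B2) (hb : (b : F) ∈ V' j), e j ⟨b, hb⟩ = 0 ↔ b ∈ 𝔫)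
    (hagree : ∀ i ∈ br, ∀ j ∈ br, ∀ (b : B2) (hi : (b : F) ∈ V' i) (hj : (b : F) ∈ V' j),
      e i ⟨b, hi⟩ = e j ⟨b, hj⟩)
    (hsurj : ∀ j ∈ br, ∀ x : k, ∃ (b : B2) (hb : (b : F) ∈ V' j), e j ⟨b, hb⟩ = x)
    (hsep : ∀ j ∈ vert, j ∉ br → ∃ s : B2, s ∉ 𝔫 ∧ (s : F) ∈ (V j).nonunits)
    {m : ℕ} (hm : (m : B2) ∉ 𝔫) {u : F} (hu : ∀ j ∈ vert, u - 1 ∈ (V j).nonunits)
    {g : F} (hgB : g ∈ B12) {c : B2} (hc : c ∉ 𝔫) (hgc : g ^ m * u = c)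
    (N : ℕ)
    (hcond : ∀ z ∈ (branchJac br V') ^ N, ∃ c₀ : B2, c₀ ∉ 𝔫 ∧ ∃ b : B2,
      ∀ j ∈ br, (c₀ : F) * (z : F) - (b : F) ∈ (V j).nonunits)
    (hξ : ∀ i ∈ br, ∀ j ∈ br, ∀ (hi : g ∈ V' i) (hj : g ∈ V' j), e i ⟨g, hi⟩ = e j ⟨g, hj⟩) :
    LocAt V B2 B12 vert 𝔫 g := by
  have hm0 : m ≠ 0 := by
    rintro rfl
    exact hm (by simp)
  -- `g` lies in the branch rings
  have hgV' : ∀ j ∈ br, g ∈ V' j := fun j hj =>
    gen_mem (hB2V' j hj) hm0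
      (inv_mem_of_sub_one_mem (nonunits_le_of_le (hV' j hj) (hu j (hbr hj)))).2
      (ne_zero_of_sub_one_mem (hu j (hbr hj))) hgc
  have huV' : ∀ j ∈ br, u ∈ V' j := fun j hj =>
    (inv_mem_of_sub_one_mem (nonunits_le_of_le (hV' j hj) (hu j (hbr hj)))).1
  -- centre of the branch rings on `B2`
  have hcentre : ∀ j ∈ br, ∀ b : B2, (b : F) ∈ (V' j).nonunits → b ∈ 𝔫 := by
    intro j hj b hb
    exact (heB2 j hj b (hB2V' j hj b)).mp ((heker j hj ⟨b, hB2V' j hj b⟩).mpr hb)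
  -- the common branch value
  obtain ⟨j₀, hj₀⟩ := hbrne
  obtain ⟨b₀, hb₀V, hb₀⟩ := hsurj j₀ hj₀ (e j₀ ⟨g, hgV' j₀ hj₀⟩)
  have hb₀𝔫 : b₀ ∉ 𝔫 := by
    intro hb
    have h1 : e j₀ ⟨g, hgV' j₀ hj₀⟩ = 0 := by
      rw [← hb₀]
      exact (heB2 j₀ hj₀ b₀ hb₀V).mpr hb
    have h2 : g ∈ (V' j₀).nonunits := (heker j₀ hj₀ ⟨g, hgV' j₀ hj₀⟩).mp h1
    have h3 : (c : F) ∈ (V' j₀).nonunits := by
      rw [← hgc]
      have h4 : g ^ m * u = (g ^ (m - 1) * u) * g := by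
        rw [mul_right_comm, ← pow_succ, Nat.sub_add_cancel (Nat.pos_of_ne_zero hm0)]
      rw [h4]
      exact mul_mem_nonunits
        ((V' j₀).mul_mem _ _ ((V' j₀).pow_mem (hgV' j₀ hj₀) _) (huV' j₀ hj₀)) h2
    exact hc (hcentre j₀ hj₀ c h3)
  have hξ' : ∀ j ∈ br, g - (b₀ : F) ∈ (V' j).nonunits := by
    intro j hj
    have h1 : e j (⟨g, hgV' j hj⟩ - ⟨b₀, hB2V' j hj b₀⟩) = 0 := by
      rw [map_sub, hξ j hj j₀ hj₀ (hgV' j hj) (hgV' j₀ hj₀),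
        hagree j hj j₀ hj₀ b₀ (hB2V' j hj b₀) hb₀V, hb₀, sub_self]
    exact (heker j hj _).mp h1
  exact loc_branch B12 hle vert 𝔫 hB2V V' br ⟨j₀, hj₀⟩ hbr hV' hB2V' hcentre hsep hm hu hgB hgc N
    hcond hb₀𝔫 hξ'

end Fermat.Agent.GL.LocEv
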