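/-
GATE-L / L8' (LOC-III) in the HEIGHT-ONE frame (helper35): the type-III (triple point) arm of the
(LOC) dispatcher, twin of helper47's `LocTypeI`.

`B2 : Subring F` noetherian, integrally closed, `Frac B2 = F`; `V := V1 F` the height-one DVRs
(helper80 `HeightOneFrame`); `vert : Finset (HtOne B2)` the vertical primes; `𝔫` a prime of `B2`;
`br` = the vertical primes through `𝔫`; `V' j ≤ V1 F j` the rank-2 branch valuation rings (helper46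
`CompBranch.comp`) centred at `𝔫`.

`loc_typeIII` : from the `U3` datum of helper46 `H4OfXi` at `𝔫`
(`g ^ m * u = c ∈ B2`, `b₀ ∈ B2 ∖ 𝔫` with `g - b₀ ∈ (V' j).nonunits` on every branch) and the local
conductor `hcond` (`CondOfGlue3.exists_cond` / helper29 `CondLocal`) :
`g ∈ B12 ∧ LocGlue.LocAt (V1 F) B2 B12 vert 𝔫 g`.
`hB2V`, `hsep` of `LocBranch.loc_branch` are discharged from the height-one frame; `g ∈ B12` from
`m`-root-closedness of `B12` and `u⁻¹ ∈ B12`.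
-/
import Fermat.Agent.GL.Loc.LocBranch
import Fermat.Agent.GL.Frame.HeightOneFrame

set_option autoImplicit false

namespace Fermat.Agent.GL.LocTypeIII

open Fermat.Agent.GL.LocGlue Fermat.Agent.GL.LocBranch Fermat.Agent.GL.Frame.HeightOne

variable {F : Type*} [Field F] (B2 : Subring F) [IsNoetherianRing B2] [IsIntegrallyClosed B2]
  [IsFractionRing B2 F]

/-- elements of `B2` lie in every height-one DVR -/
theorem coe_mem_V1 (j : HtOne B2) (b : B2) : (b : F) ∈ V1 F j :=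
  algebraMap_mem_V1 j b

/-- a vertical prime not through `𝔫` has a separator -/
theorem exists_sep (𝔫 : Ideal B2) (j : HtOne B2) (hj : ¬ j.1 ≤ 𝔫) :
    ∃ e : B2, e ∉ 𝔫 ∧ (e : F) ∈ (V1 F j).nonunits := by
  obtain ⟨e, hej, he𝔫⟩ := Set.not_subset.mp hj
  exact ⟨e, he𝔫, (algebraMap_mem_nonunits_V1_iff j e).2 hej⟩

/-- **(LOC-III) at a triple point, height-one frame.** -/
theorem loc_typeIII (B12 : Subring F) (hle : B2 ≤ B12) {m : ℕ}
    (hrc : ∀ y : F, y ^ m ∈ B12 → y ∈ B12)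
    (vert : Finset (HtOne B2)) (𝔫 : Ideal B2) [𝔫.IsPrime]
    (V' : HtOne B2 → ValuationSubring F) (br : Finset (HtOne B2)) (hbrne : br.Nonempty)
    (hbr : ∀ j, j ∈ br ↔ j ∈ vert ∧ j.1 ≤ 𝔫)
    (hV' : ∀ j ∈ br, V' j ≤ V1 F j)
    (hB2V' : ∀ j ∈ br, ∀ b : B2, (b : F) ∈ V' j)
    (hcentre : ∀ j ∈ br, ∀ b : B2, (b : F) ∈ (V' j).nonunits → b ∈ 𝔫)
    (hm : (m : B2) ∉ 𝔫) {u : F} (hu : ∀ j ∈ vert, u - 1 ∈ (V1 F j).nonunits) (huB : u⁻¹ ∈ B12)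
    {g : F} {c : B2} (hgc : g ^ m * u = c)
    (N : ℕ)
    (hcond : ∀ z ∈ (branchJac br V') ^ N, ∃ c₀ : B2, c₀ ∉ 𝔫 ∧ ∃ b : B2,
      ∀ j ∈ br, (c₀ : F) * (z : F) - (b : F) ∈ (V1 F j).nonunits)
    {b₀ : B2} (hb₀ : b₀ ∉ 𝔫) (hξ : ∀ j ∈ br, g - (b₀ : F) ∈ (V' j).nonunits) :
    g ∈ B12 ∧ LocAt (V1 F) B2 B12 vert 𝔫 g := by
  have hbrv : br ⊆ vert := fun j hj => ((hbr j).1 hj).1
  -- `u ≠ 0`
  obtain ⟨j₀, hj₀⟩ := hbrne
  have hu0 : u ≠ 0 := ne_zero_of_sub_one_mem (hu j₀ (hbrv hj₀))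
  -- `g ∈ B12`
  have hgB : g ∈ B12 := by
    apply hrc
    have : g ^ m = (c : F) * u⁻¹ := by
      rw [← hgc, mul_assoc, mul_inv_cancel₀ hu0, mul_one]
    rw [this]
    exact B12.mul_mem (hle c.2) huB
  refine ⟨hgB, ?_⟩
  exact loc_branch (V := V1 F) (B2 := B2) B12 hle vert 𝔫 (fun j _ b => coe_mem_V1 B2 j b) V' br
    ⟨j₀, hj₀⟩ hbrv hV' hB2V' hcentre
    (fun j hj hjb => exists_sep B2 𝔫 j (fun hle' => hjb ((hbr j).2 ⟨hj, hle'⟩)))
    hm hu hgB hgc N hcond hb₀ hξ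

end Fermat.Agent.GL.LocTypeIII
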