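/-
GATE-L / (LOC-III) BRIDGE `U3 ⟹ hξ` (helper35): from helper46's `H4OfXi.U3` datum
(`g - b₀` a non-unit of the three rank-two composite rings at the triple point) to the `hξ` binder
of helper29's `FrobGlue3.loc_frobGlue3_max` (all characters of `C × C × C` over `𝔫` agree on `rd g`),
and the composition into `LocGlue.LocAt`.

* `char_of_over` : CLASSIFICATION.  `ψ₁ ψ₂ ψ₃ : C →ₐ[k] k` (the branch points on the three
  components) with `ψ_i ((rd b).i) = χ b` on `B2` (`χ : B2 →+* k`, `χ b = 0 → b ∈ 𝔫`); then a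
  character `φ` of `C × C × C` killing `rd 𝔫` is `ψ₁ ∘ pr₁`, `ψ₂ ∘ pr₂` or `ψ₃ ∘ pr₃`
  [`φ = χ` on `rd B2 = R` by `k`-linearity; old triples `h0`, `h2`; `algHom_prod3_cases`].
* `hxi_of_values` : `ψ_i ((rd g).i) = v` (`i = 1,2,3`) ⟹ `hξ` of `loc_frobGlue3_max` VERBATIM.
* `CompBranch.ev_eq_zero_of_mem_nonunits`, `ev_eq_of_sub_mem_nonunits` : in a composite ring whose
  evaluation detects units (`heu` of `H4OfXi.TripleSetup`), non-units have value `0`.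
* `locAt_of_branch` : frame form.  `B2 ≤ Bs ≤ B12 ≤ F`, `rd : Bs →+* C × C × C`, `V'_i` valuation
  subrings with `z ∈ Bs`, `z ∈ (V'_i).nonunits ⟹ ψ_i ((rd z).i) = 0`; `g - b₀ ∈ (V'_i).nonunits`
  ⟹ `LocAt V B2 B12 vert 𝔫 g`.
-/
import Fermat.Agent.GL.Loc.LocPlug
import Fermat.Agent.GL.Chain.CompBranchKer

set_option autoImplicit false

namespace Fermat.Agent.GL.XiOfBranch

open Fermat.Agent.GK.FrobGlue Fermat.Agent.GL.FrobGlue3 Fermat.Agent.GL.LocToCech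
  Fermat.Agent.GL.LocGlue

section Chars

variable {k C : Type*} [Field k] [CommRing C] [Algebra k C]
  (Ψ : C →ₐ[k] C) (R : Subalgebra k (C × C × C))
  (h0 : ∀ f, ((f, Ψ (Ψ f), f) : C × C × C) ∈ R)
  (h2 : ∀ f, ((Ψ (Ψ f), f, f) : C × C × C) ∈ R)
  {B : Type*} [CommRing B] (B2 : Subring B) (𝔫 : Ideal B2) (rd : B →+* C × C × C)
  (hR : ∀ r ∈ R, ∃ b : B2, rd (b : B) = r)
  (χ : B2 →+* k) (hχ : ∀ b, χ b = 0 → b ∈ 𝔫)
  (ψ1 ψ2 ψ3 : C →ₐ[k] k)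
  (hψ1 : ∀ b : B2, ψ1 (rd (b : B)).1 = χ b)
  (hψ2 : ∀ b : B2, ψ2 (rd (b : B)).2.1 = χ b)
  (hψ3 : ∀ b : B2, ψ3 (rd (b : B)).2.2 = χ b)

include hR hχ hψ1 in
/-- a character killing `rd 𝔫` restricts to `χ` on `rd B2`. -/
theorem char_eq_on_B2 (hB2 : ∀ b : B2, rd (b : B) ∈ R)
    (φ : C × C × C →ₐ[k] k) (hφ : ∀ b ∈ 𝔫, φ (rd (b : B)) = 0) (b : B2) :
    φ (rd (b : B)) = χ b := by
  -- `r' := rd b - χ b • 1 ∈ R`
  have hr' : rd (b : B) - algebraMap k (C × C × C) (χ b) ∈ R :=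
    R.sub_mem (hB2 b) (R.algebraMap_mem _)
  obtain ⟨b', hb'⟩ := hR _ hr'
  have h1 : χ b' = 0 := by
    rw [← hψ1 b', hb']
    show ψ1 ((rd (b : B)).1 - (algebraMap k (C × C × C) (χ b)).1) = 0
    rw [map_sub, hψ1 b]
    have : (algebraMap k (C × C × C) (χ b)).1 = algebraMap k C (χ b) := rfl
    rw [this, AlgHom.commutes]
    exact sub_self _
  have h2' := hφ b' (hχ b' h1)
  rw [hb', map_sub, AlgHom.commutes, sub_eq_zero] at h2'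
  exact h2'

include h0 h2 hR hχ hψ1 hψ2 hψ3 in
/-- **classification of the characters over `𝔫`.** -/
theorem char_of_over (hB2 : ∀ b : B2, rd (b : B) ∈ R)
    (φ : C × C × C →ₐ[k] k) (hφ : ∀ b ∈ 𝔫, φ (rd (b : B)) = 0) :
    (∀ w, φ w = ψ1 w.1) ∨ (∀ w, φ w = ψ2 w.2.1) ∨ (∀ w, φ w = ψ3 w.2.2) := by
  have hφR := char_eq_on_B2 R B2 𝔫 rd hR χ hχ ψ1 hψ1 hB2 φ hφ
  rcases algHom_prod3_cases φ with h | h | h
  · left
    intro w
    obtain ⟨b, hb⟩ := hR _ (h0 w.1)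
    have e1 := hφR b
    rw [h, hb, ← hψ1 b, hb] at e1
    rw [h w]
    exact e1
  · right; left
    intro w
    obtain ⟨b, hb⟩ := hR _ (h2 w.2.1)
    have e1 := hφR b
    rw [h, hb, ← hψ2 b, hb] at e1
    rw [h w]
    exact e1
  · right; right
    intro w
    obtain ⟨b, hb⟩ := hR _ (h0 w.2.2)
    have e1 := hφR b
    rw [h, hb, ← hψ3 b, hb] at e1
    rw [h w]
    exact e1

include h0 h2 hR hχ hψ1 hψ2 hψ3 in
/-- **`hξ` of `loc_frobGlue3_max` from the three branch values.** -/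
theorem hxi_of_values (hB2 : ∀ b : B2, rd (b : B) ∈ R) {g : B} {v : k}
    (hg1 : ψ1 (rd g).1 = v) (hg2 : ψ2 (rd g).2.1 = v) (hg3 : ψ3 (rd g).2.2 = v) :
    ∀ φ φ' : C × C × C →ₐ[k] k, (∀ b ∈ 𝔫, φ (rd (b : B)) = 0) →
      (∀ b ∈ 𝔫, φ' (rd (b : B)) = 0) → φ (rd g) = φ' (rd g) := by
  have hval : ∀ φ : C × C × C →ₐ[k] k, (∀ b ∈ 𝔫, φ (rd (b : B)) = 0) → φ (rd g) = v := by
    intro φ hφ
    rcases char_of_over Ψ R h0 h2 B2 𝔫 rd hR χ hχ ψ1 ψ2 ψ3 hψ1 hψ2 hψ3 hB2 φ hφ with h | h | h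
    · rw [h, hg1]
    · rw [h, hg2]
    · rw [h, hg3]
  intro φ φ' hφ hφ'
  rw [hval φ hφ, hval φ' hφ']

end Chars

/-! ### composite branches: non-units have value `0` -/

section Comp

open Fermat.Agent.GL.CompBranch

variable {F κ k : Type*} [Field F] [Field κ] [Field k]
  (V : ValuationSubring F) (r : V →+* κ) (hr : ∀ z : V, ¬ IsUnit z → r z = 0)
  (U : ValuationSubring κ) (e : U →+* k)
  (heu : ∀ (y : κ) (hy : y ∈ U), e ⟨y, hy⟩ ≠ 0 → y⁻¹ ∈ U)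

include heu in
/-- a non-unit of the composite ring has value `0` (the evaluation detects the units of `U`). -/
theorem ev_eq_zero_of_mem_nonunits {z : F} (hz : z ∈ (comp V r hr U).nonunits) :
    (branch V r hr U e).ev z = 0 := by
  by_contra hne
  have hzc : z ∈ comp V r hr U := ValuationSubring.nonunits_le hz
  obtain ⟨hzV, hzU⟩ := (mem_comp V r hr U).mp hzc
  rw [branch_ev V r hr U e hzV hzU] at hne
  have hinvU : (r ⟨z, hzV⟩)⁻¹ ∈ U := heu _ hzU hne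
  have hrz0 : r ⟨z, hzV⟩ ≠ 0 := by
    intro h0
    apply hne
    have : (⟨r ⟨z, hzV⟩, hzU⟩ : U) = 0 := Subtype.ext h0
    rw [this, map_zero]
  have hunit : IsUnit (⟨z, hzV⟩ : V) := by
    by_contra hnu
    exact hrz0 (hr _ hnu)
  have hzi : z⁻¹ ∈ V := inv_mem_of_isUnit hunit
  have hz0 : z ≠ 0 := by
    rintro rfl
    exact hrz0 (map_zero r)
  have hmul : r ⟨z, hzV⟩ * r ⟨z⁻¹, hzi⟩ = 1 := by
    rw [← map_mul]
    have : (⟨z, hzV⟩ : V) * ⟨z⁻¹, hzi⟩ = 1 := Subtype.ext (mul_inv_cancel₀ hz0)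
    rw [this, map_one]
  have hri : r ⟨z⁻¹, hzi⟩ = (r ⟨z, hzV⟩)⁻¹ := eq_inv_of_mul_eq_one_right hmul
  have hzic : z⁻¹ ∈ comp V r hr U := (mem_comp V r hr U).mpr ⟨hzi, hri ▸ hinvU⟩
  rw [ValuationSubring.mem_nonunits_iff_or] at hz
  rcases hz with h | h
  · exact hz0 h
  · exact h hzic

include heu in
/-- `z - w` a non-unit of the composite ring ⟹ equal values. -/
theorem ev_eq_of_sub_mem_nonunits {z w : F} (hz : z ∈ comp V r hr U) (hw : w ∈ comp V r hr U)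
    (h : z - w ∈ (comp V r hr U).nonunits) :
    (branch V r hr U e).ev z = (branch V r hr U e).ev w := by
  have := ev_eq_zero_of_mem_nonunits V r hr U e heu h
  rw [ev_sub V r hr U e hz hw, sub_eq_zero] at this
  exact this

end Comp

/-! ### frame form -/

section Frame

variable {F : Type*} [Field F] {𝒱 : Type*} (V : 𝒱 → ValuationSubring F) (vert : Finset 𝒱)
  {k C : Type*} [Field k] [CommRing C] [Algebra k C]

/-- **(LOC-III) from the `U3` datum, helper29's conductor route, in frame form.**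
`V1' V2' V3'` the rank-two branch rings at the triple point, `ψ_i` the branch points as characters
of `C`, `χ : B2 → k` the residue character of `𝔫`. -/
theorem locAt_of_branch (Ψ : C →ₐ[k] C) (R : Subalgebra k (C × C × C))
    (h0 : ∀ f, ((f, Ψ (Ψ f), f) : C × C × C) ∈ R)
    (h1 : ∀ f, ((Ψ f, Ψ f, Ψ f) : C × C × C) ∈ R)
    (h2 : ∀ f, ((Ψ (Ψ f), f, f) : C × C × C) ∈ R)
    [IsAlgClosed k] [Algebra.FiniteType k C] [Module.Finite k (C ⧸ fixIdeal Ψ ^ 2)]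
    (B2 Bs B12 : Subring F) (hB2s : B2 ≤ Bs) (hBs : Bs ≤ B12)
    (𝔫 : Ideal B2) [𝔫.IsMaximal] (rd : Bs →+* C × C × C)
    (hsmall : ∀ z : Bs, rd z = 0 → ∀ j ∈ vert, (z : F) ∈ (V j).nonunits)
    (hB2 : ∀ b : subB2 B2 Bs, rd (b : Bs) ∈ R)
    (hR : ∀ r ∈ R, ∃ b : subB2 B2 Bs, rd (b : Bs) = r)
    (χ : B2 →+* k) (hχ : ∀ b, χ b = 0 → b ∈ 𝔫)
    (ψ1 ψ2 ψ3 : C →ₐ[k] k)
    (hψ1 : ∀ b : subB2 B2 Bs, ψ1 (rd (b : Bs)).1 = χ (toB2 B2 Bs b))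
    (hψ2 : ∀ b : subB2 B2 Bs, ψ2 (rd (b : Bs)).2.1 = χ (toB2 B2 Bs b))
    (hψ3 : ∀ b : subB2 B2 Bs, ψ3 (rd (b : Bs)).2.2 = χ (toB2 B2 Bs b))
    (V1' V2' V3' : ValuationSubring F)
    (hK1 : ∀ z : Bs, (z : F) ∈ V1'.nonunits → ψ1 (rd z).1 = 0)
    (hK2 : ∀ z : Bs, (z : F) ∈ V2'.nonunits → ψ2 (rd z).2.1 = 0)
    (hK3 : ∀ z : Bs, (z : F) ∈ V3'.nonunits → ψ3 (rd z).2.2 = 0)
    {m : ℕ} (hm : (m : k) ≠ 0) {g : Bs} {w : subB2 B2 Bs} (hw : w ∉ comapIdeal Bs 𝔫)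
    (hgw : g ^ m - (w : Bs) ∈ RingHom.ker rd)
    {b₀ : subB2 B2 Bs}
    (hξ1 : (g : F) - ((b₀ : Bs) : F) ∈ V1'.nonunits)
    (hξ2 : (g : F) - ((b₀ : Bs) : F) ∈ V2'.nonunits)
    (hξ3 : (g : F) - ((b₀ : Bs) : F) ∈ V3'.nonunits) :
    LocAt V B2 B12 vert 𝔫 (g : F) := by
  have hχ' : ∀ b : subB2 B2 Bs, (χ.comp (toB2 B2 Bs)) b = 0 → b ∈ comapIdeal Bs 𝔫 :=
    fun b hb => hχ _ hb
  have hker𝔫 : ∀ b : subB2 B2 Bs, rd (b : Bs) = 0 → b ∈ comapIdeal Bs 𝔫 := by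
    intro b hb
    apply hχ' b
    show χ (toB2 B2 Bs b) = 0
    rw [← hψ1 b, hb]
    exact map_zero ψ1
  have hv1 : ψ1 (rd g).1 = χ (toB2 B2 Bs b₀) := by
    have := hK1 (g - (b₀ : Bs)) hξ1
    rw [map_sub, Prod.fst_sub, map_sub, sub_eq_zero] at this
    rw [this, hψ1]
  have hv2 : ψ2 (rd g).2.1 = χ (toB2 B2 Bs b₀) := by
    have := hK2 (g - (b₀ : Bs)) hξ2
    rw [map_sub, Prod.snd_sub, Prod.fst_sub, map_sub, sub_eq_zero] at this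
    rw [this, hψ2]
  have hv3 : ψ3 (rd g).2.2 = χ (toB2 B2 Bs b₀) := by
    have := hK3 (g - (b₀ : Bs)) hξ3
    rw [map_sub, Prod.snd_sub, Prod.snd_sub, map_sub, sub_eq_zero] at this
    rw [this, hψ3]
  exact Fermat.Agent.GL.LocPlug.locAt_of_frobGlue3 V vert Ψ R h0 h1 h2 B2 Bs B12 hB2s hBs 𝔫 rd
    hsmall hker𝔫 hB2 hR hm hw hgw
    (hxi_of_values Ψ R h0 h2 (subB2 B2 Bs) (comapIdeal Bs 𝔫) rd hR (χ.comp (toB2 B2 Bs)) hχ'
      ψ1 ψ2 ψ3 hψ1 hψ2 hψ3 hB2 hv1 hv2 hv3)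

end Frame

end Fermat.Agent.GL.XiOfBranch
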